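/-
S48 wall (W), block G (good reduction of `X₁(M)` at `p ∤ M`), part G-PORT.
Sub-architect: helper37.  DEFINITIONS ONLY (no theorem with content, no sorry).

GENERIC in a field of rational `q`-series `F₀ ⊆ ℚ((q))` (application: `F₀ = FOne M`),
`F = laurentBaseChange ℚ̄ F₀`, `A` a valuation ring of `ℚ̄` over `p`.

chain (every arrow = one seat, file `S48/W/G/Port/<Seat>.lean`):

  IF-G1 `TorsionUnramifiedOne M`   <= [FunOne]  `InertiaPowGen (FOne M) p A`
  `InertiaPowGen F₀ p A`           <= [FunOne]  `KeyLemmaGen F₀ p A` + `IsIntGen A F₀`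
  `KeyLemmaGen F₀ p A`             <= [KeyAsm]  `S48WG.RedInput A F₀` + `IsIntGen A F₀`     (G-RED gives RedInput)
  IF-G2 `TorsionFrobQuadraticOne M`<= [FunTwo]  `FrobPowOne M` + `HeckeInputsOne M p` + `∃ δ, IsDiamond M d δ`
  `FrobPowOne M`                   <= [FrobAsm] `KeyLemmaGen` + `IsIntGen` + `NormProductOne M p δ`
                                                + `GaussStable A (FOne M) δ` + `HeckeInputsOne M p`
  `GaussStable A F₀ δ`             <= [Diam]    `RedInput A F₀` + `δ` fixes the base function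
  `NormProductOne M p δ`           <= [Kron*]   analytic hub A1 (conjugates of `y(q^p)` over `F₁(M)`)
-/
import Mathlib
import Fermat.Agent.S48.W.Interfaces
import Fermat.Agent.Lib.GaussInt.Basic
import Fermat.Agent.Lib.Kronecker.Formal
import Fermat.Agent.F3.Galois.NormDesc
import Fermat.Prelude.Def_ModularCurve_ArithmeticGalois
import Fermat.Prelude.Def_FLTPrelim_Ramification

set_option autoImplicit false

noncomputable section

namespace Fermat.Agent.S48WPort

open ModularCurve AlgebraicCurve Fermat.Agent.GaussInt Fermat.Agent.S48W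

local notation "Kb" => AlgebraicClosure ℚ
local notation "GK" => (AlgebraicClosure ℚ ≃ₐ[ℚ] AlgebraicClosure ℚ)

section Generic

variable (F₀ : IntermediateField ℚ (LaurentSeries ℚ))

/-- the coefficientwise action of `σ ∈ G_ℚ` on `F = ℚ̄ F₀`. -/
abbrev galFunGen (σ : GK) (f : laurentBaseChange Kb F₀) : laurentBaseChange Kb F₀ :=
  arithmeticGalois F₀ σ • f

/-- **KEY LEMMA** for `F = ℚ̄ F₀` at the place `A` over `p`: a function `g ≡ 1` modulo the Gauss
valuation whose divisor is divisible by `n`, `p ∤ n`, is an `n`-th power. -/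
def KeyLemmaGen (p : ℕ) (A : ValuationSubring Kb) : Prop :=
  ∀ n : ℕ, ¬ p ∣ n → ∀ g : laurentBaseChange Kb F₀, g ≠ 0 →
    (∀ P : Place Kb (laurentBaseChange Kb F₀), (n : ℤ) ∣ P.ord g) →
    (g : LaurentSeries Kb) ∈ gaussSub A (laurentBaseChange Kb F₀) →
    gaussResFun A (laurentBaseChange Kb F₀) (g : LaurentSeries Kb) = 1 →
    ∃ h : laurentBaseChange Kb F₀, h ^ n = g

/-- function form of "inertia at `A` acts trivially on the prime-to-`p` torsion". -/
def InertiaPowGen (p : ℕ) (A : ValuationSubring Kb) : Prop :=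
  ∀ n : ℕ, ¬ p ∣ n → ∀ τ ∈ A.inertiaSubgroupIn ℚ, ∀ f : laurentBaseChange Kb F₀, f ≠ 0 →
    ∀ D : Divisor.degZero (K := Kb) (F := laurentBaseChange Kb F₀),
      (∀ v, (n : ℤ) * (D : Divisor Kb (laurentBaseChange Kb F₀)) v = v.ord f) →
        ∃ u : laurentBaseChange Kb F₀, u ^ n * f = galFunGen F₀ τ f

/-- the automorphism `δ` of `F = ℚ̄ F₀` preserves the Gauss ring at `A`. -/
def GaussStable (A : ValuationSubring Kb)
    (δ : laurentBaseChange Kb F₀ ≃ₐ[Kb] laurentBaseChange Kb F₀) : Prop :=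
  ∀ f : laurentBaseChange Kb F₀,
    (f : LaurentSeries Kb) ∈ gaussSub A (laurentBaseChange Kb F₀) →
    ((δ f : laurentBaseChange Kb F₀) : LaurentSeries Kb) ∈ gaussSub A (laurentBaseChange Kb F₀)

/-- the automorphism `δ` of `F = ℚ̄ F₀` commutes with the coefficientwise action of `G_ℚ`
(it is "defined over `ℚ`"). -/
def GalComm (δ : laurentBaseChange Kb F₀ ≃ₐ[Kb] laurentBaseChange Kb F₀) : Prop :=
  ∀ (σ : GK) (f : laurentBaseChange Kb F₀), δ (galFunGen F₀ σ f) = galFunGen F₀ σ (δ f)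

variable {F₀}
variable {F₁ : IntermediateField ℚ (LaurentSeries ℚ)}

/-- the norm `ℚ̄ F₁ → ℚ̄ F₀` along the inclusion. -/
def qSeriesNorm (h : F₀ ≤ F₁) : laurentBaseChange Kb F₁ →* laurentBaseChange Kb F₀ :=
  Fermat.Agent.F3G.normAlong (qSeriesAlpha Kb h)

/-- the function `T f := Norm_{ℚ̄ F₁ / ℚ̄ F₀} (f(q^p))`. -/
def qSeriesHeckeFun (h : F₀ ≤ F₁) (p : ℕ) [NeZero p] (hF : ∀ y ∈ F₀, qExpand ℚ p y ∈ F₁) :
    laurentBaseChange Kb F₀ →* laurentBaseChange Kb F₀ :=
  (qSeriesNorm h).comp (qSeriesBeta Kb p hF : _ →* _)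

/-- **twisted product formula** ("PROD" with the diamond `δ`):
`(T y)(q^p) = y(q^{p²}) · ∏_{b<p} (δ y)(ζ^b q)`. -/
def NormProductGen (h : F₀ ≤ F₁) (p : ℕ) [NeZero p] (hF : ∀ y ∈ F₀, qExpand ℚ p y ∈ F₁)
    (δ : laurentBaseChange Kb F₀ ≃ₐ[Kb] laurentBaseChange Kb F₀) : Prop :=
  ∃ ζ : Kbˣ, IsPrimitiveRoot ζ p ∧
    ∀ y : laurentBaseChange Kb F₀,
      qExpand Kb p ((qSeriesHeckeFun h p hF y : laurentBaseChange Kb F₀) : LaurentSeries Kb) =
        qExpand Kb (p * p) (y : LaurentSeries Kb) *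
          ∏ b ∈ Finset.range p,
            Fermat.Agent.Kronecker.scaleL (ζ ^ b)
              ((δ y : laurentBaseChange Kb F₀) : LaurentSeries Kb)

/-- function form of the (twisted) Eichler-Shimura relation at the place `A` over `p`:
`T f = uⁿ · σ(δ f) · (σ⁻¹ f)^p` when the divisor of `f` is divisible by `n`, `p ∤ n`. -/
def FrobPowGen (h : F₀ ≤ F₁) (p : ℕ) [NeZero p] (hF : ∀ y ∈ F₀, qExpand ℚ p y ∈ F₁)
    (δ : laurentBaseChange Kb F₀ ≃ₐ[Kb] laurentBaseChange Kb F₀)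
    (A : ValuationSubring Kb) : Prop :=
  ∀ n : ℕ, ¬ p ∣ n → ∀ σ : GK, A.IsFrobeniusAt σ p → ∀ f : laurentBaseChange Kb F₀, f ≠ 0 →
    ∀ D : Divisor.degZero (K := Kb) (F := laurentBaseChange Kb F₀),
      (∀ v, (n : ℤ) * (D : Divisor Kb (laurentBaseChange Kb F₀)) v = v.ord f) →
        ∃ u : laurentBaseChange Kb F₀,
          u ^ n * qSeriesHeckeFun h p hF f = galFunGen F₀ σ (δ f) * galFunGen F₀ σ⁻¹ f ^ p

end Generic

/-! ### the instances at level `Γ₁(M)` -/

/-- the KEY LEMMA at level `Γ₁(M)`, all `p ∤ M`. -/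
def KeyLemmaAtOne (M : ℕ) [NeZero M] : Prop :=
  ∀ (p : ℕ), p.Prime → ¬ p ∣ M → ∀ A : ValuationSubring Kb, A.LiesOverPrime p →
    KeyLemmaGen (FOne M) p A

/-- "inertia acts trivially", function form, level `Γ₁(M)`. -/
def InertiaPowOne (M : ℕ) [NeZero M] : Prop :=
  ∀ (p : ℕ), p.Prime → ¬ p ∣ M → ∀ A : ValuationSubring Kb, A.LiesOverPrime p →
    InertiaPowGen (FOne M) p A

/-- `T_p f = Norm (f(q^p))` on functions of level `Γ₁(M)`. -/
def heckeFunOne (M p : ℕ) [NeZero M] [NeZero p] : FOneBar M →* FOneBar M :=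
  qSeriesHeckeFun (FOne_le_FOneP M p) p (fun _ hy => qExpand_mem_FOneP M p hy)

/-- the twisted product formula at level `Γ₁(M)`: for every diamond automorphism `δ = ⟨p⟩`. -/
def NormProductOne (M : ℕ) [NeZero M] : Prop :=
  ∀ (p : ℕ) [NeZero p] (_ : p.Prime) (hpM : Nat.Coprime p M)
    (δ : FOneBar M ≃ₐ[Kb] FOneBar M), IsDiamond M (ZMod.unitOfCoprime p hpM) δ →
      NormProductGen (FOne_le_FOneP M p) p (fun _ hy => qExpand_mem_FOneP M p hy) δ

/-- the diamond automorphisms preserve the Gauss ring at every place over `p ∤ M`. -/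
def DiamondGaussOne (M : ℕ) [NeZero M] : Prop :=
  ∀ (p : ℕ), p.Prime → ¬ p ∣ M → ∀ A : ValuationSubring Kb, A.LiesOverPrime p →
    ∀ (d : (ZMod M)ˣ) (δ : FOneBar M ≃ₐ[Kb] FOneBar M), IsDiamond M d δ →
      GaussStable (FOne M) A δ

/-- the (twisted) Eichler-Shimura relation, function form, level `Γ₁(M)`. -/
def FrobPowOne (M : ℕ) [NeZero M] : Prop :=
  ∀ (p : ℕ) [NeZero p] (_ : p.Prime) (hpM : Nat.Coprime p M)
    (δ : FOneBar M ≃ₐ[Kb] FOneBar M), IsDiamond M (ZMod.unitOfCoprime p hpM) δ →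
    ∀ A : ValuationSubring Kb, A.LiesOverPrime p →
      FrobPowGen (FOne_le_FOneP M p) p (fun _ hy => qExpand_mem_FOneP M p hy) δ A

end Fermat.Agent.S48WPort
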