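/-
S48 wall (W), block G-PORT, seat P5 Diam (helper26): an automorphism `δ` of `F = ℚ̄ F₀` which fixes
a base function `x` of the Gauss ring preserves the Gauss ring.

Route (helper37): `E = ℚ̄(x)`, `n = [F : E]`.  `O ∩ E` is the Gauss valuation of `ℚ̄(x)`, so its
residues lie in `k(x̄)`.  Lift `n` elements of the residue field, linearly independent over
`k(x̄)`, to `y₁, …, y_n ∈ O`: then `O = ⊕ (O ∩ E) y_i`, so every `f ∈ O` is integral over
`O ∩ E`; `δ` fixes `E`, so `δ f` is integral over `O ∩ E ⊆ O`, and `O` is integrally closed.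

* `diam_exists_prim`     : normalisation of a polynomial over a valued field;
* `diam_res_mem`         : residues of `O ∩ K(x)` lie in `k(x̄)`  (abstract);
* `diam_key`, `diam_mem_of_sum_mem`, `diam_linearIndependent` : the basis lemma (abstract);
* `diam_stable`          : the abstract statement;
* `gaussStable_of_baseFun` : the seat.
-/
import Mathlib
import Fermat.Agent.S48.W.G.Port.Defs
import Fermat.Agent.S48.W.G.Red.Defs
import Fermat.Agent.Lib.GaussInt.Bundle

set_option autoImplicit false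

noncomputable section

namespace Fermat.Agent.S48WPort

open Polynomial IntermediateField

section Abstract

variable {K F κ : Type*} [Field K] [Field F] [Field κ] [Algebra K F]

/-- NORMALISATION: a nonzero polynomial over `K` is a nonzero constant times a polynomial over
the valuation ring `A` with nonzero reduction. -/
theorem diam_exists_prim (A : ValuationSubring K) (r : K[X]) (hr : r ≠ 0) :
    ∃ (a : K) (r₁ : A[X]), a ≠ 0 ∧ r = C a * r₁.map A.subtype ∧
      r₁.map (IsLocalRing.residue A) ≠ 0 := by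
  have hne : r.support.Nonempty := by
    rw [Finset.nonempty_iff_ne_empty, Ne, Polynomial.support_eq_empty]
    exact hr
  obtain ⟨m, hm, hmax⟩ := Finset.exists_max_image r.support (fun i => A.valuation (r.coeff i)) hne
  have ha : r.coeff m ≠ 0 := Polynomial.mem_support_iff.mp hm
  have hva : A.valuation (r.coeff m) ≠ 0 := (Valuation.ne_zero_iff _).mpr ha
  have hle : ∀ i, A.valuation (r.coeff i) ≤ A.valuation (r.coeff m) := by
    intro i
    by_cases hi : i ∈ r.support
    · exact hmax i hi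
    · rw [Polynomial.notMem_support_iff.mp hi, map_zero]
      exact zero_le
  have hmem : ∀ i, r.coeff i / r.coeff m ∈ A := by
    intro i
    rw [← A.valuation_le_one_iff, map_div₀]
    exact div_le_one_of_le₀ (hle i) zero_le
  let c : ℕ → A := fun i => ⟨r.coeff i / r.coeff m, hmem i⟩
  let r₁ : A[X] := ∑ i ∈ r.support, Polynomial.monomial i (c i)
  have hcoeff : ∀ i, r₁.coeff i = if i ∈ r.support then c i else 0 := by
    intro i
    show (∑ j ∈ r.support, Polynomial.monomial j (c j)).coeff i = _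
    rw [Polynomial.finsetSum_coeff]
    simp only [Polynomial.coeff_monomial]
    rw [Finset.sum_ite_eq' r.support i (fun j => c j)]
  refine ⟨r.coeff m, r₁, ha, ?_, ?_⟩
  · ext i
    rw [Polynomial.coeff_C_mul, Polynomial.coeff_map, hcoeff]
    by_cases hi : i ∈ r.support
    · rw [if_pos hi]
      show r.coeff i = r.coeff m * (r.coeff i / r.coeff m)
      field_simp
    · rw [if_neg hi, map_zero, mul_zero]
      exact Polynomial.notMem_support_iff.mp hi
  · intro h0
    have h1 := congrArg (fun q => q.coeff m) h0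
    simp only [Polynomial.coeff_map, Polynomial.coeff_zero] at h1
    rw [hcoeff, if_pos hm] at h1
    have h2 : c m = 1 := Subtype.ext (div_self ha)
    rw [h2, map_one] at h1
    exact one_ne_zero h1

variable (A : ValuationSubring K) [Algebra (IsLocalRing.ResidueField A) κ]
  (O : ValuationSubring F) (ρ : O →+* κ)

/-- the structure map `A → O`. -/
def diamIncl (hO : ∀ c : K, c ∈ A → algebraMap K F c ∈ O) : A →+* O where
  toFun c := ⟨algebraMap K F (c : K), hO _ c.2⟩
  map_one' := Subtype.ext (by simp)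
  map_mul' a b := Subtype.ext (by simp)
  map_zero' := Subtype.ext (by simp)
  map_add' a b := Subtype.ext (by simp)

variable {A O ρ}

/-- values of integral polynomials at an element of `O`: they lie in `O`, and their residues are
the values of the reduced polynomials. -/
theorem diam_res_aeval (hO : ∀ c : K, c ∈ A → algebraMap K F c ∈ O)
    (hρ : ∀ (c : K) (hc : c ∈ A), ρ ⟨algebraMap K F c, hO c hc⟩ =
      algebraMap (IsLocalRing.ResidueField A) κ (IsLocalRing.residue A ⟨c, hc⟩))
    (x : O) (r₁ : A[X]) :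
    ∃ z : O, (z : F) = aeval (x : F) (r₁.map A.subtype) ∧
      ρ z = aeval (ρ x) (r₁.map (IsLocalRing.residue A)) := by
  refine ⟨r₁.eval₂ (diamIncl A O hO) x, ?_, ?_⟩
  · have h1 := Polynomial.hom_eval₂ r₁ (diamIncl A O hO) O.subtype x
    have h2 : (O.subtype : O →+* F).comp (diamIncl A O hO) = (algebraMap K F).comp A.subtype := by
      ext c
      rfl
    rw [h2] at h1
    rw [Polynomial.aeval_def, Polynomial.eval₂_map]
    exact h1
  · have h1 := Polynomial.hom_eval₂ r₁ (diamIncl A O hO) ρ x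
    have h2 : ρ.comp (diamIncl A O hO) =
        (algebraMap (IsLocalRing.ResidueField A) κ).comp (IsLocalRing.residue A) := by
      ext c
      exact hρ c c.2
    rw [h2] at h1
    rw [Polynomial.aeval_def, Polynomial.eval₂_map]
    exact h1

/-- values of polynomials at `x̄` lie in `k(x̄)`. -/
theorem diam_aeval_mem_adjoin {k : Type*} [Field k] [Algebra k κ] (t : κ) (q : k[X]) :
    aeval t q ∈ k⟮t⟯ :=
  IntermediateField.algebra_adjoin_le_adjoin k {t} (Polynomial.aeval_mem_adjoin_singleton k t)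

/-- **the Gauss valuation of `K(x)`**: the residues of the elements of `O ∩ K(x)` lie in
`k(x̄)`, when `x̄` is transcendental over `k`. -/
theorem diam_res_mem (hO : ∀ c : K, c ∈ A → algebraMap K F c ∈ O)
    (hO' : ∀ c : K, algebraMap K F c ∈ O → c ∈ A)
    (hρ : ∀ (c : K) (hc : c ∈ A), ρ ⟨algebraMap K F c, hO c hc⟩ =
      algebraMap (IsLocalRing.ResidueField A) κ (IsLocalRing.residue A ⟨c, hc⟩))
    (hker : ∀ u : O, ¬ IsUnit u → ρ u = 0)
    (x : O) (htr : Transcendental (IsLocalRing.ResidueField A) (ρ x))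
    (u : O) (hu : (u : F) ∈ K⟮(x : F)⟯) :
    ρ u ∈ (IsLocalRing.ResidueField A)⟮ρ x⟯ := by
  obtain ⟨r, s, hrs⟩ := (IntermediateField.mem_adjoin_simple_iff K (u : F)).mp hu
  by_cases hu0 : (u : F) = 0
  · have : u = 0 := Subtype.ext hu0
    rw [this, map_zero]
    exact zero_mem _
  have hr0 : aeval (x : F) r ≠ 0 := by
    intro h0
    rw [h0, zero_div] at hrs
    exact hu0 hrs
  have hs0 : aeval (x : F) s ≠ 0 := by
    intro h0
    rw [h0, div_zero] at hrs
    exact hu0 hrs
  have hr : r ≠ 0 := fun h => hr0 (by rw [h, map_zero])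
  have hs : s ≠ 0 := fun h => hs0 (by rw [h, map_zero])
  obtain ⟨a, r₁, ha, hr₁, hr₁'⟩ := diam_exists_prim A r hr
  obtain ⟨b, s₁, hb, hs₁, hs₁'⟩ := diam_exists_prim A s hs
  obtain ⟨P, hP, hPρ⟩ := diam_res_aeval hO hρ x r₁
  obtain ⟨S, hS, hSρ⟩ := diam_res_aeval hO hρ x s₁
  have hPne : ρ P ≠ 0 := by
    rw [hPρ]
    intro h0
    exact hr₁' (transcendental_iff.mp htr _ h0)
  have hSne : ρ S ≠ 0 := by
    rw [hSρ]
    intro h0
    exact hs₁' (transcendental_iff.mp htr _ h0)
  have hPu : IsUnit P := by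
    by_contra h
    exact hPne (hker P h)
  have hSu : IsUnit S := by
    by_contra h
    exact hSne (hker S h)
  obtain ⟨Pu, rfl⟩ := hPu
  obtain ⟨Su, rfl⟩ := hSu
  have hPF : ((Pu : O) : F) ≠ 0 := by
    intro h0
    apply hPne
    have : (Pu : O) = 0 := Subtype.ext h0
    rw [this, map_zero]
  have hSF : ((Su : O) : F) ≠ 0 := by
    intro h0
    apply hSne
    have : (Su : O) = 0 := Subtype.ext h0
    rw [this, map_zero]
  -- `u = (a / b) P / S`
  have h1 : aeval (x : F) r = algebraMap K F a * ((Pu : O) : F) := by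
    rw [hP]
    conv_lhs => rw [hr₁]
    rw [map_mul, Polynomial.aeval_C]
  have h2 : aeval (x : F) s = algebraMap K F b * ((Su : O) : F) := by
    rw [hS]
    conv_lhs => rw [hs₁]
    rw [map_mul, Polynomial.aeval_C]
  have hbF : algebraMap K F b ≠ 0 := by simpa using hb
  have h3 : algebraMap K F (a / b) = (u : F) * ((Su : O) : F) * (((Pu⁻¹ : Oˣ) : O) : F) := by
    have h4 : (((Pu⁻¹ : Oˣ) : O) : F) = (((Pu : O) : F))⁻¹ := by
      have h5 : ((Pu : O) : F) * (((Pu⁻¹ : Oˣ) : O) : F) = 1 :=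
        congrArg (fun z : O => (z : F)) (Units.mul_inv Pu)
      exact eq_inv_of_mul_eq_one_right h5
    rw [h4, hrs, h1, h2, map_div₀]
    field_simp
  have hcO : algebraMap K F (a / b) ∈ O := by
    rw [h3]
    exact mul_mem (mul_mem u.2 (Su : O).2) ((Pu⁻¹ : Oˣ) : O).2
  have hcA : a / b ∈ A := hO' _ hcO
  have h6 : u = ⟨algebraMap K F (a / b), hO _ hcA⟩ * (Pu : O) * ((Su⁻¹ : Oˣ) : O) := by
    apply Subtype.ext
    have h4 : (((Su⁻¹ : Oˣ) : O) : F) = (((Su : O) : F))⁻¹ := by
      have h5 : ((Su : O) : F) * (((Su⁻¹ : Oˣ) : O) : F) = 1 :=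
        congrArg (fun z : O => (z : F)) (Units.mul_inv Su)
      exact eq_inv_of_mul_eq_one_right h5
    show (u : F) = algebraMap K F (a / b) * ((Pu : O) : F) * (((Su⁻¹ : Oˣ) : O) : F)
    rw [h4, hrs, h1, h2, map_div₀]
    field_simp
  have h7 : ρ ((Su⁻¹ : Oˣ) : O) = (ρ (Su : O))⁻¹ := by
    have h5 : ρ (Su : O) * ρ ((Su⁻¹ : Oˣ) : O) = 1 := by
      rw [← map_mul, Units.mul_inv, map_one]
    exact eq_inv_of_mul_eq_one_right h5
  rw [h6, map_mul, map_mul, hρ _ hcA, h7, hPρ, hSρ]
  exact mul_mem (mul_mem (IntermediateField.algebraMap_mem _ _) (diam_aeval_mem_adjoin _ _))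
    (inv_mem (diam_aeval_mem_adjoin _ _))

end Abstract

section Basis

variable {K F k κ : Type*} [Field K] [Field F] [Field k] [Field κ] [Algebra K F] [Algebra k κ]
  {O : ValuationSubring F} {ρ : O →+* κ} {E : IntermediateField K F}
  {κ₀ : IntermediateField k κ}

/-- an index of largest valuation. -/
theorem diam_exists_max (O : ValuationSubring F) {n : ℕ} (e : Fin n → F) (he : e ≠ 0) :
    ∃ j, e j ≠ 0 ∧ ∀ i, e i / e j ∈ O := by
  obtain ⟨i₀, hi₀⟩ : ∃ i, e i ≠ 0 := by
    by_contra h
    exact he (funext fun i => by_contra fun hi => h ⟨i, hi⟩)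
  obtain ⟨j, -, hj⟩ := Finset.exists_max_image Finset.univ (fun i => O.valuation (e i))
    ⟨i₀, Finset.mem_univ _⟩
  have hj0 : e j ≠ 0 := by
    intro h0
    have h1 := hj i₀ (Finset.mem_univ _)
    simp only [h0, map_zero] at h1
    exact hi₀ ((map_eq_zero _).mp (le_antisymm h1 zero_le))
  refine ⟨j, hj0, fun i => ?_⟩
  rw [← O.valuation_le_one_iff, map_div₀]
  exact div_le_one_of_le₀ (hj i (Finset.mem_univ _)) zero_le

/-- **the basis lemma**: a combination `Σ e_i y_i`, `e_i ∈ E`, of lifts of `κ₀`-independent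
residues is `e_j` times a unit of `O`, `e_j` a coefficient of largest valuation. -/
theorem diam_key {n : ℕ} (hker : ∀ u : O, ¬ IsUnit u → ρ u = 0)
    (hE : ∀ u : O, (u : F) ∈ E → ρ u ∈ κ₀)
    (y : Fin n → O) (hy : LinearIndependent κ₀ (fun i => ρ (y i)))
    (e : Fin n → E) (j : Fin n) (hj : (e j : F) ≠ 0)
    (hmax : ∀ i, ((e i : F) / (e j : F)) ∈ O) :
    ∃ u : Oˣ, ∑ i, (e i : F) * ((y i : O) : F) = (e j : F) * ((u : O) : F) := by
  let c : Fin n → O := fun i => ⟨(e i : F) / (e j : F), hmax i⟩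
  have hcE : ∀ i, ((c i : O) : F) ∈ E := fun i => div_mem (e i).2 (e j).2
  let g : Fin n → κ₀ := fun i => ⟨ρ (c i), hE _ (hcE i)⟩
  have hρs : ρ (∑ i, c i * y i) = ∑ i, g i • ρ (y i) := by
    rw [map_sum]
    refine Finset.sum_congr rfl fun i _ => ?_
    rw [map_mul]
    rfl
  have hgj : g j = 1 := by
    apply Subtype.ext
    show ρ (c j) = 1
    have : c j = 1 := Subtype.ext (div_self hj)
    rw [this, map_one]
  have hne : ρ (∑ i, c i * y i) ≠ 0 := by
    intro h0
    rw [hρs] at h0
    have h1 := (Fintype.linearIndependent_iff.mp hy) g h0 j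
    rw [hgj] at h1
    exact one_ne_zero h1
  have hu : IsUnit (∑ i, c i * y i) := by
    by_contra h
    exact hne (hker _ h)
  obtain ⟨u, hu⟩ := hu
  refine ⟨u, ?_⟩
  rw [hu]
  have h2 : ((∑ i, c i * y i : O) : F) = ∑ i, ((c i : O) : F) * ((y i : O) : F) := by
    simp
  rw [h2, Finset.mul_sum]
  refine Finset.sum_congr rfl fun i _ => ?_
  show (e i : F) * ((y i : O) : F) = (e j : F) * ((e i : F) / (e j : F) * ((y i : O) : F))
  field_simp

/-- the lifts are linearly independent over `E`. -/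
theorem diam_linearIndependent {n : ℕ} (hker : ∀ u : O, ¬ IsUnit u → ρ u = 0)
    (hE : ∀ u : O, (u : F) ∈ E → ρ u ∈ κ₀)
    (y : Fin n → O) (hy : LinearIndependent κ₀ (fun i => ρ (y i))) :
    LinearIndependent E (fun i => ((y i : O) : F)) := by
  rw [Fintype.linearIndependent_iff]
  intro e he
  by_contra hne
  obtain ⟨i₀, hi₀⟩ := not_forall.mp hne
  have he' : (fun i => (e i : F)) ≠ 0 := by
    intro h0
    apply hi₀
    apply Subtype.ext
    exact congrFun h0 i₀
  obtain ⟨j, hj, hmax⟩ := diam_exists_max O (fun i => (e i : F)) he'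
  obtain ⟨u, hu⟩ := diam_key hker hE y hy e j hj hmax
  have h1 : ∑ i, (e i : F) * ((y i : O) : F) = 0 := by
    rw [← he]
    rfl
  rw [h1] at hu
  have hu0 : ((u : O) : F) ≠ 0 := by
    intro h0
    have : (u : O) = 0 := Subtype.ext h0
    exact u.ne_zero this
  exact mul_ne_zero hj hu0 hu.symm

/-- if `Σ e_i y_i ∈ O` then every `e_i ∈ O`. -/
theorem diam_mem_of_sum_mem {n : ℕ} (hker : ∀ u : O, ¬ IsUnit u → ρ u = 0)
    (hE : ∀ u : O, (u : F) ∈ E → ρ u ∈ κ₀)
    (y : Fin n → O) (hy : LinearIndependent κ₀ (fun i => ρ (y i)))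
    (e : Fin n → E) (hsum : ∑ i, (e i : F) * ((y i : O) : F) ∈ O) (i : Fin n) :
    (e i : F) ∈ O := by
  by_cases he' : (fun i => (e i : F)) = 0
  · have : (e i : F) = 0 := congrFun he' i
    rw [this]
    exact zero_mem _
  obtain ⟨j, hj, hmax⟩ := diam_exists_max O (fun i => (e i : F)) he'
  obtain ⟨u, hu⟩ := diam_key hker hE y hy e j hj hmax
  have hinv : (((u⁻¹ : Oˣ) : O) : F) = (((u : O) : F))⁻¹ := by
    have h5 : ((u : O) : F) * (((u⁻¹ : Oˣ) : O) : F) = 1 :=
      congrArg (fun z : O => (z : F)) (Units.mul_inv u)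
    exact eq_inv_of_mul_eq_one_right h5
  have hu0 : ((u : O) : F) ≠ 0 := by
    intro h0
    have : (u : O) = 0 := Subtype.ext h0
    exact u.ne_zero this
  have hej : (e j : F) ∈ O := by
    have h1 : (e j : F) = (∑ i, (e i : F) * ((y i : O) : F)) * (((u⁻¹ : Oˣ) : O) : F) := by
      rw [hu, hinv]
      field_simp
    rw [h1]
    exact mul_mem hsum ((u⁻¹ : Oˣ) : O).2
  have h2 : (e i : F) = (e i : F) / (e j : F) * (e j : F) := by
    field_simp
  rw [h2]
  exact mul_mem (hmax i) hej

/-- **abstract form of the seat**: an automorphism fixing `E` pointwise preserves `O`, when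
`[F : E]` residues are linearly independent over `κ₀ ⊇ ρ(O ∩ E)`. -/
theorem diam_stable [FiniteDimensional E F] {n : ℕ} (hn : Module.finrank E F = n)
    (hker : ∀ u : O, ¬ IsUnit u → ρ u = 0)
    (hE : ∀ u : O, (u : F) ∈ E → ρ u ∈ κ₀)
    (y : Fin n → O) (hy : LinearIndependent κ₀ (fun i => ρ (y i)))
    (δ : F →+* F) (hδ : ∀ e ∈ E, δ e = e) (f : F) (hf : f ∈ O) : δ f ∈ O := by
  have hli := diam_linearIndependent hker hE y hy
  have hspan : Submodule.span E (Set.range fun i => ((y i : O) : F)) = ⊤ :=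
    hli.span_eq_top_of_card_eq_finrank' (by rw [Fintype.card_fin, hn])
  -- every element of `O` is an `(O ∩ E)`-combination of the `y i`
  have hcomb : ∀ z ∈ O, ∃ e : Fin n → E, (∀ i, (e i : F) ∈ O) ∧
      z = ∑ i, (e i : F) * ((y i : O) : F) := by
    intro z hz
    have hz' : z ∈ Submodule.span E (Set.range fun i => ((y i : O) : F)) := by
      rw [hspan]
      trivial
    obtain ⟨e, he⟩ := (Submodule.mem_span_range_iff_exists_fun E).mp hz'
    have he' : z = ∑ i, (e i : F) * ((y i : O) : F) := by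
      rw [← he]
      rfl
    exact ⟨e, fun i => diam_mem_of_sum_mem hker hE y hy e (he' ▸ hz) i, he'⟩
  -- integrality over `R = O ∩ E`
  let R : Subring F := O.toSubring ⊓ E.toSubring
  let N : Submodule R F := Submodule.span R (Set.range fun i => ((y i : O) : F))
  have hN_le : ∀ z ∈ N, z ∈ O := by
    intro z hz
    induction hz using Submodule.span_induction with
    | mem z hz =>
      obtain ⟨i, rfl⟩ := hz
      exact (y i).2
    | zero => exact zero_mem _
    | add a b _ _ ha hb => exact add_mem ha hb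
    | smul r a _ ha => exact mul_mem r.2.1 ha
  have hfN : ∀ z ∈ N, f • z ∈ N := by
    intro z hz
    have h1 : f * z ∈ O := mul_mem hf (hN_le z hz)
    obtain ⟨e, heO, hsum⟩ := hcomb _ h1
    rw [smul_eq_mul, hsum]
    refine Submodule.sum_mem _ fun i _ => ?_
    have h2 : (e i : F) * ((y i : O) : F) =
        (⟨(e i : F), ⟨heO i, (e i).2⟩⟩ : R) • ((y i : O) : F) := rfl
    rw [h2]
    exact Submodule.smul_mem _ _ (Submodule.subset_span ⟨i, rfl⟩)
  have hnpos : 0 < n := by
    rw [← hn]
    exact Module.finrank_pos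
  have hN0 : N ≠ ⊥ := by
    intro h0
    have h1 : ((y ⟨0, hnpos⟩ : O) : F) ∈ N := Submodule.subset_span ⟨⟨0, hnpos⟩, rfl⟩
    rw [h0, Submodule.mem_bot] at h1
    exact hli.ne_zero ⟨0, hnpos⟩ h1
  have hint : IsIntegral R f :=
    isIntegral_of_smul_mem_submodule N hN0 (Submodule.fg_span (Set.finite_range _)) f hfN
  obtain ⟨q, hq, hqf⟩ := hint
  have hδR : δ.comp (algebraMap R F) = algebraMap R F := by
    ext r
    exact hδ _ r.2.2
  have hqδ : q.eval₂ (algebraMap R F) (δ f) = 0 := by
    have h1 := Polynomial.hom_eval₂ q (algebraMap R F) δ f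
    rw [hδR, hqf, map_zero] at h1
    exact h1.symm
  -- `O` is integrally closed
  let incl : R →+* O :=
    { toFun := fun r => ⟨(r : F), r.2.1⟩
      map_one' := rfl
      map_mul' := fun _ _ => rfl
      map_zero' := rfl
      map_add' := fun _ _ => rfl }
  have hintO : IsIntegral O (δ f) := by
    refine ⟨q.map incl, hq.map _, ?_⟩
    rw [Polynomial.eval₂_map]
    exact hqδ
  obtain ⟨w, hw⟩ := IsIntegrallyClosed.isIntegral_iff.mp hintO
  rw [← hw]
  exact w.2

/-- a family of `[F : E]` elements of `O` with `κ₀`-independent residues. -/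
theorem diam_exists_lift [FiniteDimensional E F]
    (hdeg : Module.finrank E F ≤ Module.finrank κ₀ κ) (hsurj : Function.Surjective ρ) :
    ∃ y : Fin (Module.finrank E F) → O, LinearIndependent κ₀ (fun i => ρ (y i)) := by
  have hnpos : 0 < Module.finrank E F := Module.finrank_pos
  have : Module.Finite κ₀ κ := Module.finite_of_finrank_pos (lt_of_lt_of_le hnpos hdeg)
  let b := Module.finBasis κ₀ κ
  have hb : LinearIndependent κ₀ (fun i : Fin (Module.finrank E F) => b (Fin.castLE hdeg i)) :=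
    b.linearIndependent.comp _ (Fin.castLE_injective hdeg)
  choose y hy using fun i : Fin (Module.finrank E F) => hsurj (b (Fin.castLE hdeg i))
  refine ⟨y, ?_⟩
  have : (fun i => ρ (y i)) = fun i => b (Fin.castLE hdeg i) := funext hy
  rw [this]
  exact hb

end Basis

section Main

variable {K F κ : Type*} [Field K] [Field F] [Field κ] [Algebra K F]
  {A : ValuationSubring K} [Algebra (IsLocalRing.ResidueField A) κ]
  {O : ValuationSubring F} {ρ : O →+* κ}

/-- a `K`-automorphism fixing `x` fixes `K(x)` pointwise. -/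
theorem diam_fix_adjoin (δ : F ≃ₐ[K] F) (x : F)
    (hδ : δ x = x) (e : F) (he : e ∈ K⟮x⟯) : δ e = e := by
  obtain ⟨r, s, rfl⟩ := (IntermediateField.mem_adjoin_simple_iff K e).mp he
  have h1 : ∀ q : K[X], δ (aeval x q) = aeval x q := fun q =>
    (Polynomial.aeval_algHom_apply (δ : F →ₐ[K] F) x q).symm.trans
      (by rw [show (δ : F →ₐ[K] F) x = x from hδ])
  rw [map_div₀, h1, h1]

/-- **abstract form of the seat**, with the base function. -/
theorem diam_main (hO : ∀ c : K, c ∈ A → algebraMap K F c ∈ O)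
    (hO' : ∀ c : K, algebraMap K F c ∈ O → c ∈ A)
    (hρ : ∀ (c : K) (hc : c ∈ A), ρ ⟨algebraMap K F c, hO c hc⟩ =
      algebraMap (IsLocalRing.ResidueField A) κ (IsLocalRing.residue A ⟨c, hc⟩))
    (hker : ∀ u : O, ¬ IsUnit u → ρ u = 0) (hsurj : Function.Surjective ρ)
    (x : F) (hx : x ∈ O) (xbar : κ) (hxbar : ρ ⟨x, hx⟩ = xbar)
    (htr : Transcendental (IsLocalRing.ResidueField A) xbar)
    [FiniteDimensional K⟮x⟯ F]
    (hdeg : Module.finrank K⟮x⟯ F ≤ Module.finrank (IsLocalRing.ResidueField A)⟮xbar⟯ κ)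
    (δ : F ≃ₐ[K] F) (hδ : δ x = x) (f : F) (hf : f ∈ O) : δ f ∈ O := by
  subst hxbar
  have hE : ∀ u : O, (u : F) ∈ K⟮x⟯ → ρ u ∈ (IsLocalRing.ResidueField A)⟮ρ ⟨x, hx⟩⟯ :=
    fun u hu => diam_res_mem hO hO' hρ hker ⟨x, hx⟩ htr u hu
  obtain ⟨y, hy⟩ := diam_exists_lift (E := K⟮x⟯) (ρ := ρ) hdeg hsurj
  exact diam_stable rfl hker hE y hy (δ : F →+* F)
    (fun e he => diam_fix_adjoin δ x hδ e he) f hf

end Main

/-! ### the seat -/

section Seat

open ModularCurve AlgebraicCurve Fermat.Agent.GaussInt Fermat.Agent.S48WG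

local notation "Kb" => AlgebraicClosure ℚ

variable {F₀ : IntermediateField ℚ (LaurentSeries ℚ)} {A : ValuationSubring Kb}

set_option synthInstance.maxHeartbeats 400000 in
/-- **P5 Diam**: an automorphism `δ` of `F = ℚ̄ F₀` which fixes a base function `x` of the Gauss
ring (with `x̄` transcendental and `[F : ℚ̄(x)] ≤ [F_k : k(x̄)]`) preserves the Gauss ring. -/
theorem gaussStable_of_baseFun {p : ℕ} (hp : p.Prime) (hA : A.LiesOverPrime p)
    (hF₀ : IsIntGen A F₀) (hsurj : ResSurj A F₀)
    {x : LaurentSeries Kb} (hx : x ∈ gaussSub A (laurentBaseChange Kb F₀))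
    (htr : Transcendental (IsLocalRing.ResidueField A) (resElt hx))
    (hfin : FiniteDimensional Kb⟮barElt hx⟯ ↥(laurentBaseChange Kb F₀))
    (hdeg : Module.finrank Kb⟮barElt hx⟯ ↥(laurentBaseChange Kb F₀) ≤
      Module.finrank (IsLocalRing.ResidueField A)⟮resElt hx⟯ ↥(resField A F₀))
    {δ : laurentBaseChange Kb F₀ ≃ₐ[Kb] laurentBaseChange Kb F₀}
    (hδ : δ (barElt hx) = barElt hx) : GaussStable F₀ A δ := by
  have h : GaussHyp A F₀ p := ⟨hp, hA, hF₀⟩
  have hR3 : ∀ f ∈ gaussSub A (laurentBaseChange Kb F₀),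
      gaussResFun A (laurentBaseChange Kb F₀) f ∈ resField A F₀ :=
    fun f hf => IntermediateField.subset_adjoin _ _ ⟨f, hf, rfl⟩
  intro f hf
  exact diam_main (A := A) (O := gaussValSub h) (ρ := gaussValResTo h (resField A F₀) hR3)
    (fun c hc => (gaussValSub_mem_iff_const h c).mpr hc)
    (fun c hc => (gaussValSub_mem_iff_const h c).mp hc)
    (fun c hc => gaussValResTo_algebraMap h (resField A F₀) hR3 c hc _)
    (fun u hu => (gaussValResTo_eq_zero_iff h (resField A F₀) hR3 u).mpr hu)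
    (gaussValResTo_surjective h (resField A F₀) hR3 hsurj)
    (barElt hx) hx (resElt hx) rfl htr hdeg δ hδ f hf

end Seat

end Fermat.Agent.S48WPort
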