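/-
S48 wall (W), block G, part G-PORT (sub-architect helper37): the interface Props AT A FIXED
TORSION ORDER `n` (the wall needs `n = ℓ` only, `S48/W/R/AsmAt.lean`; the transfer at `p = 2, 3`
delivers the KEY LEMMA at `n = ℓ` only).  DEFINITIONS and the trivial comparisons.
-/
import Mathlib
import Fermat.Agent.S48.W.G.Port.Defs

set_option autoImplicit false

noncomputable section

namespace Fermat.Agent.S48WPort

open ModularCurve AlgebraicCurve Fermat.Agent.GaussInt Fermat.Agent.S48W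

local notation "Kb" => AlgebraicClosure ℚ
local notation "GK" => (AlgebraicClosure ℚ ≃ₐ[ℚ] AlgebraicClosure ℚ)

section Generic

variable (F₀ : IntermediateField ℚ (LaurentSeries ℚ))

/-- the KEY LEMMA for `F = ℚ̄ F₀` at the place `A`, for the exponent `n`. -/
def KeyLemmaGenAt (A : ValuationSubring Kb) (n : ℕ) : Prop :=
  ∀ g : laurentBaseChange Kb F₀, g ≠ 0 →
    (∀ P : Place Kb (laurentBaseChange Kb F₀), (n : ℤ) ∣ P.ord g) →
    (g : LaurentSeries Kb) ∈ gaussSub A (laurentBaseChange Kb F₀) →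
    gaussResFun A (laurentBaseChange Kb F₀) (g : LaurentSeries Kb) = 1 →
    ∃ h : laurentBaseChange Kb F₀, h ^ n = g

/-- "inertia at `A` acts trivially on the `n`-torsion", function form. -/
def InertiaPowGenAt (A : ValuationSubring Kb) (n : ℕ) : Prop :=
  ∀ τ ∈ A.inertiaSubgroupIn ℚ, ∀ f : laurentBaseChange Kb F₀, f ≠ 0 →
    ∀ D : Divisor.degZero (K := Kb) (F := laurentBaseChange Kb F₀),
      (∀ v, (n : ℤ) * (D : Divisor Kb (laurentBaseChange Kb F₀)) v = v.ord f) →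
        ∃ u : laurentBaseChange Kb F₀, u ^ n * f = galFunGen F₀ τ f

variable {F₀}
variable {F₁ : IntermediateField ℚ (LaurentSeries ℚ)}

/-- the (twisted) Eichler-Shimura relation at the place `A` over `p`, function form, for the
exponent `n`. -/
def FrobPowGenAt (h : F₀ ≤ F₁) (p : ℕ) [NeZero p] (hF : ∀ y ∈ F₀, qExpand ℚ p y ∈ F₁)
    (δ : laurentBaseChange Kb F₀ ≃ₐ[Kb] laurentBaseChange Kb F₀)
    (A : ValuationSubring Kb) (n : ℕ) : Prop :=
  ∀ σ : GK, A.IsFrobeniusAt σ p → ∀ f : laurentBaseChange Kb F₀, f ≠ 0 →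
    ∀ D : Divisor.degZero (K := Kb) (F := laurentBaseChange Kb F₀),
      (∀ v, (n : ℤ) * (D : Divisor Kb (laurentBaseChange Kb F₀)) v = v.ord f) →
        ∃ u : laurentBaseChange Kb F₀,
          u ^ n * qSeriesHeckeFun h p hF f = galFunGen F₀ σ (δ f) * galFunGen F₀ σ⁻¹ f ^ p

variable (F₀)

theorem keyLemmaGen_iff_at (p : ℕ) (A : ValuationSubring Kb) :
    KeyLemmaGen F₀ p A ↔ ∀ n : ℕ, ¬ p ∣ n → KeyLemmaGenAt F₀ A n := Iff.rfl

theorem inertiaPowGen_iff_at (p : ℕ) (A : ValuationSubring Kb) :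
    InertiaPowGen F₀ p A ↔ ∀ n : ℕ, ¬ p ∣ n → InertiaPowGenAt F₀ A n := Iff.rfl

variable {F₀}

theorem frobPowGen_iff_at (h : F₀ ≤ F₁) (p : ℕ) [NeZero p]
    (hF : ∀ y ∈ F₀, qExpand ℚ p y ∈ F₁)
    (δ : laurentBaseChange Kb F₀ ≃ₐ[Kb] laurentBaseChange Kb F₀) (A : ValuationSubring Kb) :
    FrobPowGen h p hF δ A ↔ ∀ n : ℕ, ¬ p ∣ n → FrobPowGenAt h p hF δ A n := Iff.rfl

end Generic

/-! ### level `Γ₁(M)`, torsion order `ℓ` -/

/-- the KEY LEMMA at level `Γ₁(M)` for the exponent `ℓ`, all `p ∤ M ℓ`. -/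
def KeyLemmaOneAt (M : ℕ) [NeZero M] (ℓ : ℕ) : Prop :=
  ∀ (p : ℕ), p.Prime → ¬ p ∣ M * ℓ → ∀ A : ValuationSubring Kb, A.LiesOverPrime p →
    KeyLemmaGenAt (FOne M) A ℓ

/-- "inertia acts trivially on `J₁(M)[ℓ]`", function form. -/
def InertiaPowOneAt (M : ℕ) [NeZero M] (ℓ : ℕ) : Prop :=
  ∀ (p : ℕ), p.Prime → ¬ p ∣ M * ℓ → ∀ A : ValuationSubring Kb, A.LiesOverPrime p →
    InertiaPowGenAt (FOne M) A ℓ

/-- the (twisted) Eichler-Shimura relation on `J₁(M)[ℓ]`, function form. -/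
def FrobPowOneAt (M : ℕ) [NeZero M] (ℓ : ℕ) : Prop :=
  ∀ (p : ℕ) [NeZero p] (_ : p.Prime) (hpM : Nat.Coprime p M), p ≠ ℓ →
    ∀ (δ : FOneBar M ≃ₐ[Kb] FOneBar M), IsDiamond M (ZMod.unitOfCoprime p hpM) δ →
    ∀ A : ValuationSubring Kb, A.LiesOverPrime p →
      FrobPowGenAt (FOne_le_FOneP M p) p (fun _ hy => qExpand_mem_FOneP M p hy) δ A ℓ

theorem keyLemmaOneAt_of {M : ℕ} [NeZero M] (h : KeyLemmaAtOne M) (ℓ : ℕ) :
    KeyLemmaOneAt M ℓ := fun p hp hpMℓ A hA =>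
  h p hp (fun hd => hpMℓ (hd.mul_right ℓ)) A hA ℓ (fun hd => hpMℓ (hd.mul_left M))

end Fermat.Agent.S48WPort
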