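/-
S48 wall (W), block G, part G-PORT, seat P4 FrobAsm (helper18).

  `KeyLemmaGen F₀ p A` + `IsIntGen A F₀` + `NormProductGen h p hF δ` (twisted Kronecker product)
    + `GaussStable F₀ A δ` + `QSeriesInputs Kb h p hF`   ⟹   `FrobPowGen h p hF δ A`.

Port of `Lib/GaussInt/FrobPowAsm.lean` (cluster B, helper30) to a generic field of `q`-series
`F₀ ⊆ ℚ((q))` and to the relation twisted by an automorphism `δ` of `F = ℚ̄ F₀` over `ℚ̄`.

For `x ∈ F^×` put `Φ x := T x / (σ (δ x) · (σ⁻¹ x)^p)`, `σ` a Frobenius element at the place `A`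
over `p`.  `Φ` is multiplicative.  For a unit `w = Y₁ / Y₂` of the Gauss ring, `δ w = Z₁ / Z₂` is a
unit of the Gauss ring (`GaussStable`); the twisted product formula and the Kronecker congruence
give `T w = U₁ / U₂`, `σ (δ w) (σ⁻¹ w)^p = V₁ / V₂` with series `U_i`, `V_i` with coefficients in
`A` and the same reductions.  The numerators and denominators need not lie in `F`; GEN-PRES
(`frobAsm_genPres`) shows that such a quotient lies in the Gauss ring nevertheless and computes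
its residue.  So `Φ w` lies in the Gauss ring with residue `1`; its divisor is divisible by `n`
when the divisor of `w` is, so the KEY LEMMA makes it an `n`-th power; constants are `n`-th powers
because `ℚ̄` is algebraically closed.
-/
import Mathlib
import Fermat.Agent.S48.W.G.Port.Defs
import Fermat.Agent.S48.W.G.Port.DefsAt
import Fermat.Agent.Lib.GaussInt.FrobFormal
import Fermat.Agent.Lib.GaussInt.ValGroup
import Fermat.Agent.Lib.GaussInt.Unramified
import Fermat.Agent.F3.Galois.TorsionReduce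

set_option autoImplicit false
set_option linter.style.haveILetI false
set_option linter.unusedSectionVars false

noncomputable section

namespace Fermat.Agent.S48WPort

open ModularCurve AlgebraicCurve HahnSeries Fermat.Agent.F3G Fermat.Agent.GaussInt
  Fermat.Agent.Kronecker Fermat.Agent.GaussIntFP Fermat.Agent.S48W

local notation "Kb" => AlgebraicClosure ℚ
local notation "GK" => (AlgebraicClosure ℚ ≃ₐ[ℚ] AlgebraicClosure ℚ)

variable {F₀ F₁ : IntermediateField ℚ (LaurentSeries ℚ)}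

/-! ### GEN-PRES -/

/-- **GEN-PRES**: an element `f` of `F` that is a quotient `U₁ / U₂` of series with coefficients
in `A`, `U₂` primitive, lies in the Gauss ring and has residue `Ū₁ / Ū₂` (the series `U₁`, `U₂`
need NOT lie in `F`). -/
theorem frobAsm_genPres {p : ℕ} (hp : p.Prime) {A : ValuationSubring Kb}
    (hA : A.LiesOverPrime p) (hInt : IsIntGen A F₀) {f : LaurentSeries Kb}
    (hf : f ∈ laurentBaseChange Kb F₀) (U₁ U₂ : LaurentSeries A)
    (hU : f * emb A U₂ = emb A U₁) (hU₂ : red A U₂ ≠ 0) :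
    f ∈ gaussSub A (laurentBaseChange Kb F₀) ∧
      gaussResFun A (laurentBaseChange Kb F₀) f = red A U₁ / red A U₂ := by
  -- the case of an element of the Gauss ring
  have key : ∀ V₁ V₂ : LaurentSeries A, IsPres A (laurentBaseChange Kb F₀) f V₁ V₂ →
      gaussResFun A (laurentBaseChange Kb F₀) f = red A U₁ / red A U₂ := by
    intro V₁ V₂ hV
    rw [gaussResFun_eq hV, div_eq_div_iff hV.prim hU₂]
    have h1 : emb A (V₁ * U₂) = emb A (U₁ * V₂) := by
      rw [map_mul, map_mul, ← hV.eq, ← hU]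
      ring
    have h2 : V₁ * U₂ = U₁ * V₂ := emb_injective A h1
    rw [← map_mul, ← map_mul, h2]
  have hmem : f ∈ gaussSub A (laurentBaseChange Kb F₀) := by
    rcases mem_or_inv_mem_gaussSub hp hA hInt hf with h | h
    · exact h
    · by_cases hf0 : f = 0
      · rw [hf0]
        exact zero_mem _
      obtain ⟨V₁, V₂, hV⟩ := h
      -- `f⁻¹ = V₁ / V₂`, so `V₂ U₂ = U₁ V₁`
      have h1 : emb A (V₂ * U₂) = emb A (U₁ * V₁) := by
        rw [map_mul, map_mul, ← hV.eq, ← hU]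
        field_simp
      have h2 : V₂ * U₂ = U₁ * V₁ := emb_injective A h1
      have h3 : red A V₂ * red A U₂ = red A U₁ * red A V₁ := by
        rw [← map_mul, ← map_mul, h2]
      have hV₁ : red A V₁ ≠ 0 := by
        intro h0
        rw [h0, mul_zero] at h3
        exact mul_ne_zero hV.prim hU₂ h3
      have hres : gaussResFun A (laurentBaseChange Kb F₀) f⁻¹ ≠ 0 := by
        rw [gaussResFun_eq hV]
        exact div_ne_zero hV₁ hV.prim
      have := inv_mem_gaussSub hV.mem_gaussSub hres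
      rwa [inv_inv] at this
  obtain ⟨V₁, V₂, hV⟩ := hmem
  exact ⟨hV.mem_gaussSub, key V₁ V₂ hV⟩

/-- a unit of the Gauss ring has nonzero residue. -/
theorem frobAsm_res_ne_zero {A : ValuationSubring Kb} {F : IntermediateField Kb (LaurentSeries Kb)}
    {f : LaurentSeries Kb} (hf : f ∈ gaussSub A F) (hinv : f⁻¹ ∈ gaussSub A F) (hf0 : f ≠ 0) :
    gaussResFun A F f ≠ 0 := by
  intro h0
  have h1 : gaussRes A F (⟨f, hf⟩ * ⟨f⁻¹, hinv⟩) = 1 := by
    have : (⟨f, hf⟩ * ⟨f⁻¹, hinv⟩ : gaussSub A F) = 1 := Subtype.ext (mul_inv_cancel₀ hf0)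
    rw [this, map_one]
  rw [map_mul] at h1
  have h2 : gaussRes A F ⟨f, hf⟩ = 0 := h0
  rw [h2, zero_mul] at h1
  exact zero_ne_one h1

/-! ### the coefficientwise Galois action -/

theorem frobAsm_gal_mul (σ : GK) (x y : laurentBaseChange Kb F₀) :
    galFunGen F₀ σ (x * y) = galFunGen F₀ σ x * galFunGen F₀ σ y :=
  smul_mul' _ _ _

theorem frobAsm_gal_ne_zero (σ : GK) {x : laurentBaseChange Kb F₀} (hx : x ≠ 0) :
    galFunGen F₀ σ x ≠ 0 := by
  intro h0
  apply hx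
  have h1 : galFunGen F₀ σ x = galFunGen F₀ σ 0 := by
    rw [h0]
    exact (smul_zero _).symm
  exact MulAction.injective _ h1

theorem frobAsm_gal_algebraMap (σ : GK) (c : Kb) :
    galFunGen F₀ σ (algebraMap Kb (laurentBaseChange Kb F₀) c) =
      algebraMap Kb (laurentBaseChange Kb F₀) (σ c) :=
  SemilinearAut.smul_algebraMap _ c

theorem frobAsm_coe_gal (σ : GK) (x : laurentBaseChange Kb F₀) :
    ((galFunGen F₀ σ x : laurentBaseChange Kb F₀) : LaurentSeries Kb) =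
      coeffMap ((σ : Kb ≃ₐ[ℚ] Kb) : Kb →+* Kb) (x : LaurentSeries Kb) :=
  rfl

/-- the semilinear automorphism `σ ∘ δ`. -/
def frobAsmTw (δ : laurentBaseChange Kb F₀ ≃ₐ[Kb] laurentBaseChange Kb F₀) (σ : GK) :
    SemilinearAut Kb (laurentBaseChange Kb F₀) :=
  arithmeticGalois F₀ σ * SemilinearAut.ofAlgAut δ

theorem frobAsmTw_smul (δ : laurentBaseChange Kb F₀ ≃ₐ[Kb] laurentBaseChange Kb F₀) (σ : GK)
    (x : laurentBaseChange Kb F₀) : frobAsmTw δ σ • x = galFunGen F₀ σ (δ x) :=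
  mul_smul _ _ _

/-! ### the twisted denominator -/

/-- `σ (δ x) · (σ⁻¹ x)^p`. -/
def frobAsmDen (δ : laurentBaseChange Kb F₀ ≃ₐ[Kb] laurentBaseChange Kb F₀) (p : ℕ) (σ : GK)
    (x : laurentBaseChange Kb F₀) : laurentBaseChange Kb F₀ :=
  galFunGen F₀ σ (δ x) * galFunGen F₀ σ⁻¹ x ^ p

theorem frobAsm_mul_pow_comm {M : Type*} [CommMonoid M] (a b c d : M) (p : ℕ) :
    (a * b) * (c * d) ^ p = (a * c ^ p) * (b * d ^ p) := by
  rw [mul_pow]
  exact mul_mul_mul_comm a b (c ^ p) (d ^ p)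

theorem frobAsmDen_mul (δ : laurentBaseChange Kb F₀ ≃ₐ[Kb] laurentBaseChange Kb F₀) (p : ℕ)
    (σ : GK) (x y : laurentBaseChange Kb F₀) :
    frobAsmDen δ p σ (x * y) = frobAsmDen δ p σ x * frobAsmDen δ p σ y := by
  unfold frobAsmDen
  have e1 : δ (x * y) = δ x * δ y := map_mul δ x y
  rw [e1, frobAsm_gal_mul, frobAsm_gal_mul]
  exact frobAsm_mul_pow_comm _ _ _ _ p

theorem frobAsmDen_ne_zero (δ : laurentBaseChange Kb F₀ ≃ₐ[Kb] laurentBaseChange Kb F₀) (p : ℕ)
    (σ : GK) {x : laurentBaseChange Kb F₀} (hx : x ≠ 0) : frobAsmDen δ p σ x ≠ 0 := by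
  unfold frobAsmDen
  have hδ : δ x ≠ 0 := fun h0 => hx (by
    have := congrArg δ.symm h0
    rwa [AlgEquiv.symm_apply_apply, map_zero] at this)
  exact mul_ne_zero (frobAsm_gal_ne_zero σ hδ) (pow_ne_zero _ (frobAsm_gal_ne_zero σ⁻¹ hx))

theorem coe_frobAsmDen (δ : laurentBaseChange Kb F₀ ≃ₐ[Kb] laurentBaseChange Kb F₀) (p : ℕ)
    (σ : GK) (x : laurentBaseChange Kb F₀) :
    ((frobAsmDen δ p σ x : laurentBaseChange Kb F₀) : LaurentSeries Kb) =
      coeffMap ((σ : Kb ≃ₐ[ℚ] Kb) : Kb →+* Kb)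
          ((δ x : laurentBaseChange Kb F₀) : LaurentSeries Kb) *
        coeffMap (((σ⁻¹ : GK) : Kb ≃ₐ[ℚ] Kb) : Kb →+* Kb) (x : LaurentSeries Kb) ^ p :=
  rfl

theorem frobAsmDen_algebraMap (δ : laurentBaseChange Kb F₀ ≃ₐ[Kb] laurentBaseChange Kb F₀)
    (p : ℕ) (σ : GK) (c : Kb) :
    frobAsmDen δ p σ (algebraMap Kb (laurentBaseChange Kb F₀) c) =
      algebraMap Kb (laurentBaseChange Kb F₀) (σ c * (σ⁻¹ c) ^ p) := by
  unfold frobAsmDen
  have e1 : δ (algebraMap Kb (laurentBaseChange Kb F₀) c) =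
      algebraMap Kb (laurentBaseChange Kb F₀) c := δ.commutes c
  rw [e1, frobAsm_gal_algebraMap, frobAsm_gal_algebraMap, map_mul, map_pow]

/-! ### presentations of `T w` and of the twisted denominator -/

section Pres

variable (A : ValuationSubring Kb) (p : ℕ) [NeZero p] [Fact p.Prime]
  [CharP (IsLocalRing.ResidueField A) p]

/-- series with coefficients in `A` representing `T w`, for `w = Y₁ / Y₂`, `δ w = Z₁ / Z₂`. -/
theorem frobAsm_exists_hecke_series {h : F₀ ≤ F₁} {hF : ∀ y ∈ F₀, qExpand ℚ p y ∈ F₁}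
    {δ : laurentBaseChange Kb F₀ ≃ₐ[Kb] laurentBaseChange Kb F₀}
    (hP : NormProductGen h p hF δ) (w : laurentBaseChange Kb F₀)
    (Y₁ Y₂ Z₁ Z₂ : LaurentSeries A)
    (hY : (w : LaurentSeries Kb) * emb A Y₂ = emb A Y₁)
    (hZ : ((δ w : laurentBaseChange Kb F₀) : LaurentSeries Kb) * emb A Z₂ = emb A Z₁) :
    ∃ U₁ U₂ : LaurentSeries A,
      ((qSeriesHeckeFun h p hF w : laurentBaseChange Kb F₀) : LaurentSeries Kb) * emb A U₂ =
          emb A U₁ ∧
        red A U₁ = qExpand (IsLocalRing.ResidueField A) p (red A Y₁) *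
          coeffMap (frobenius (IsLocalRing.ResidueField A) p) (red A Z₁) ∧
        red A U₂ = qExpand (IsLocalRing.ResidueField A) p (red A Y₂) *
          coeffMap (frobenius (IsLocalRing.ResidueField A) p) (red A Z₂) := by
  obtain ⟨ζ, hζ, hprod⟩ := hP
  obtain ⟨W₁, hW₁, hW₁red⟩ := exists_kronecker_series A p ζ hζ Z₁
  obtain ⟨W₂, hW₂, hW₂red⟩ := exists_kronecker_series A p ζ hζ Z₂
  refine ⟨qExpand A p Y₁ * W₁, qExpand A p Y₂ * W₂, ?_, ?_, ?_⟩
  · apply qExpand_injective (R := Kb) p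
    have e1 : qExpand Kb p (emb A (qExpand A p Y₁ * W₁)) =
        qExpand Kb (p * p) (emb A Y₁) * ∏ b ∈ Finset.range p, scaleL (ζ ^ b) (emb A Z₁) := by
      rw [map_mul, emb_qExpand, map_mul, qExpand_qExpand, hW₁]
    have e2 : qExpand Kb p (emb A (qExpand A p Y₂ * W₂)) =
        qExpand Kb (p * p) (emb A Y₂) * ∏ b ∈ Finset.range p, scaleL (ζ ^ b) (emb A Z₂) := by
      rw [map_mul, emb_qExpand, map_mul, qExpand_qExpand, hW₂]
    rw [map_mul, hprod w, e1, e2, ← hY, ← hZ, map_mul]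
    simp only [map_mul, Finset.prod_mul_distrib]
    ring
  · rw [map_mul, red_qExpand, hW₁red]
  · rw [map_mul, red_qExpand, hW₂red]

/-- series with coefficients in `A` representing `σ (δ w) (σ⁻¹ w)^p`, for `w = Y₁ / Y₂`,
`δ w = Z₁ / Z₂`. -/
theorem frobAsm_exists_den_series {σ : GK} (hσ : A.IsFrobeniusAt σ p)
    (δ : laurentBaseChange Kb F₀ ≃ₐ[Kb] laurentBaseChange Kb F₀) (w : laurentBaseChange Kb F₀)
    (Y₁ Y₂ Z₁ Z₂ : LaurentSeries A)
    (hY : (w : LaurentSeries Kb) * emb A Y₂ = emb A Y₁)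
    (hZ : ((δ w : laurentBaseChange Kb F₀) : LaurentSeries Kb) * emb A Z₂ = emb A Z₁) :
    ∃ V₁ V₂ : LaurentSeries A,
      ((frobAsmDen δ p σ w : laurentBaseChange Kb F₀) : LaurentSeries Kb) * emb A V₂ =
          emb A V₁ ∧
        red A V₁ = coeffMap (frobenius (IsLocalRing.ResidueField A) p) (red A Z₁) *
          qExpand (IsLocalRing.ResidueField A) p (red A Y₁) ∧
        red A V₂ = coeffMap (frobenius (IsLocalRing.ResidueField A) p) (red A Z₂) *
          qExpand (IsLocalRing.ResidueField A) p (red A Y₂) := by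
  obtain ⟨S₁, -, hS₁, -, hS₁red, -⟩ := exists_frob_series A p hσ Z₁
  obtain ⟨S₂, -, hS₂, -, hS₂red, -⟩ := exists_frob_series A p hσ Z₂
  obtain ⟨-, R₁, -, hR₁, -, hR₁red⟩ := exists_frob_series A p hσ Y₁
  obtain ⟨-, R₂, -, hR₂, -, hR₂red⟩ := exists_frob_series A p hσ Y₂
  refine ⟨S₁ * R₁ ^ p, S₂ * R₂ ^ p, ?_, ?_, ?_⟩
  · rw [coe_frobAsmDen, map_mul, map_mul, map_pow, map_pow, hS₁, hS₂, hR₁, hR₂, ← hY, ← hZ,
      map_mul, map_mul]
    ring
  · rw [map_mul, hS₁red, hR₁red]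
  · rw [map_mul, hS₂red, hR₂red]

/-- For a unit `w` of the Gauss ring, `Φ w = T w / (σ (δ w) · (σ⁻¹ w)^p)` lies in the Gauss
ring and has residue `1`. -/
theorem frobAsm_ratio_mem {h : F₀ ≤ F₁} {hF : ∀ y ∈ F₀, qExpand ℚ p y ∈ F₁}
    {δ : laurentBaseChange Kb F₀ ≃ₐ[Kb] laurentBaseChange Kb F₀}
    (hp : p.Prime) (hA : A.LiesOverPrime p) (hInt : IsIntGen A F₀)
    (hP : NormProductGen h p hF δ) (hδ : GaussStable F₀ A δ) {σ : GK}
    (hσ : A.IsFrobeniusAt σ p) (w : laurentBaseChange Kb F₀)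
    (hwmem : (w : LaurentSeries Kb) ∈ gaussSub A (laurentBaseChange Kb F₀))
    (hwres : gaussResFun A (laurentBaseChange Kb F₀) (w : LaurentSeries Kb) ≠ 0) :
    ((qSeriesHeckeFun h p hF w * (frobAsmDen δ p σ w)⁻¹ : laurentBaseChange Kb F₀) :
        LaurentSeries Kb) ∈ gaussSub A (laurentBaseChange Kb F₀) ∧
      gaussResFun A (laurentBaseChange Kb F₀)
        ((qSeriesHeckeFun h p hF w * (frobAsmDen δ p σ w)⁻¹ : laurentBaseChange Kb F₀) :
          LaurentSeries Kb) = 1 := by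
  have hw0 : w ≠ 0 := by
    rintro rfl
    apply hwres
    exact map_zero (gaussRes A (laurentBaseChange Kb F₀))
  -- `δ w` is a unit of the Gauss ring
  have hδw0 : δ w ≠ 0 := fun h0 => hw0 (by
    have := congrArg δ.symm h0
    rwa [AlgEquiv.symm_apply_apply, map_zero] at this)
  have hδw := hδ w hwmem
  have hwinv : ((w⁻¹ : laurentBaseChange Kb F₀) : LaurentSeries Kb) ∈
      gaussSub A (laurentBaseChange Kb F₀) := inv_mem_gaussSub hwmem hwres
  have hδwinv := hδ w⁻¹ hwinv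
  have e1 : δ w⁻¹ = (δ w)⁻¹ := map_inv₀ δ w
  rw [e1] at hδwinv
  have hδw0' : ((δ w : laurentBaseChange Kb F₀) : LaurentSeries Kb) ≠ 0 :=
    fun h0 => hδw0 (Subtype.ext h0)
  have hδres : gaussResFun A (laurentBaseChange Kb F₀)
      ((δ w : laurentBaseChange Kb F₀) : LaurentSeries Kb) ≠ 0 :=
    frobAsm_res_ne_zero hδw hδwinv hδw0'
  obtain ⟨Y₁, Y₂, hY⟩ := hwmem
  obtain ⟨Z₁, Z₂, hZ⟩ := hδw
  have hY₁ : red A Y₁ ≠ 0 := by
    intro h0
    apply hwres
    rw [gaussResFun_eq hY, h0, zero_div]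
  have hZ₁ : red A Z₁ ≠ 0 := by
    intro h0
    apply hδres
    rw [gaussResFun_eq hZ, h0, zero_div]
  obtain ⟨U₁, U₂, hU, hU₁, hU₂⟩ := frobAsm_exists_hecke_series A p hP w Y₁ Y₂ Z₁ Z₂ hY.eq hZ.eq
  obtain ⟨V₁, V₂, hV, hV₁, hV₂⟩ := frobAsm_exists_den_series A p hσ δ w Y₁ Y₂ Z₁ Z₂ hY.eq hZ.eq
  have hD0 : frobAsmDen δ p σ w ≠ 0 := frobAsmDen_ne_zero δ p σ hw0
  have hD0' : ((frobAsmDen δ p σ w : laurentBaseChange Kb F₀) : LaurentSeries Kb) ≠ 0 :=
    fun h0 => hD0 (Subtype.ext h0)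
  -- nonvanishing of the reductions
  have hq : ∀ Y : LaurentSeries (IsLocalRing.ResidueField A), Y ≠ 0 →
      qExpand (IsLocalRing.ResidueField A) p Y ≠ 0 := fun Y hY0 h0 =>
    hY0 (qExpand_injective (R := IsLocalRing.ResidueField A) p (by rw [h0, map_zero]))
  have hfr : ∀ Y : LaurentSeries (IsLocalRing.ResidueField A), Y ≠ 0 →
      coeffMap (frobenius (IsLocalRing.ResidueField A) p) Y ≠ 0 := fun Y hY0 h0 =>
    hY0 (coeffMap_injective_of_injective _
      (frobenius (IsLocalRing.ResidueField A) p).injective (by rw [h0, map_zero]))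
  have hne : red A (U₂ * V₁) ≠ 0 := by
    rw [map_mul, hU₂, hV₁]
    exact mul_ne_zero (mul_ne_zero (hq _ hY.prim) (hfr _ hZ.prim))
      (mul_ne_zero (hfr _ hZ₁) (hq _ hY₁))
  have hg : ((qSeriesHeckeFun h p hF w * (frobAsmDen δ p σ w)⁻¹ : laurentBaseChange Kb F₀) :
      LaurentSeries Kb) * emb A (U₂ * V₁) = emb A (U₁ * V₂) := by
    have e2 : ((qSeriesHeckeFun h p hF w * (frobAsmDen δ p σ w)⁻¹ : laurentBaseChange Kb F₀) :
        LaurentSeries Kb) =
        ((qSeriesHeckeFun h p hF w : laurentBaseChange Kb F₀) : LaurentSeries Kb) *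
          ((frobAsmDen δ p σ w : laurentBaseChange Kb F₀) : LaurentSeries Kb)⁻¹ := rfl
    rw [e2, map_mul, map_mul, ← hU, ← hV]
    field_simp
  obtain ⟨hmem, hres⟩ := frobAsm_genPres hp hA hInt
    (qSeriesHeckeFun h p hF w * (frobAsmDen δ p σ w)⁻¹ : laurentBaseChange Kb F₀).2
    (U₁ * V₂) (U₂ * V₁) hg hne
  refine ⟨hmem, ?_⟩
  rw [hres, div_eq_one_iff_eq hne, map_mul, map_mul, hU₁, hU₂, hV₁, hV₂]
  ring

end Pres

/-! ### constants -/

/-- `T` of a constant is a constant. -/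
theorem frobAsm_hecke_algebraMap (h : F₀ ≤ F₁) (p : ℕ) [NeZero p]
    (hF : ∀ y ∈ F₀, qExpand ℚ p y ∈ F₁) (c : Kb) :
    ∃ d : ℕ, qSeriesHeckeFun h p hF (algebraMap Kb (laurentBaseChange Kb F₀) c) =
      algebraMap Kb (laurentBaseChange Kb F₀) (c ^ d) := by
  letI := algebraAlong (qSeriesAlpha Kb h)
  haveI := isScalarTower_along (qSeriesAlpha Kb h)
  refine ⟨Module.finrank (laurentBaseChange Kb F₀) (laurentBaseChange Kb F₁), ?_⟩
  have e1 : qSeriesHeckeFun h p hF (algebraMap Kb (laurentBaseChange Kb F₀) c) =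
      Algebra.norm (laurentBaseChange Kb F₀)
        (qSeriesBeta Kb p hF (algebraMap Kb (laurentBaseChange Kb F₀) c)) := rfl
  rw [e1, AlgHom.commutes, map_pow]
  have h1 : algebraMap Kb (laurentBaseChange Kb F₁) c =
      algebraMap (laurentBaseChange Kb F₀) (laurentBaseChange Kb F₁)
        (algebraMap Kb (laurentBaseChange Kb F₀) c) :=
    IsScalarTower.algebraMap_apply Kb (laurentBaseChange Kb F₀) _ c
  rw [h1]
  exact Algebra.norm_algebraMap (algebraMap Kb (laurentBaseChange Kb F₀) c)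

theorem frobAsm_hecke_ne_zero {h : F₀ ≤ F₁} {p : ℕ} [NeZero p]
    {hF : ∀ y ∈ F₀, qExpand ℚ p y ∈ F₁} (hin : QSeriesInputs Kb h p hF)
    {f : laurentBaseChange Kb F₀} (hf : f ≠ 0) : qSeriesHeckeFun h p hF f ≠ 0 := by
  obtain ⟨hα, hβ, hPD, hfin, hFI, hN⟩ := hin
  have hβf : qSeriesBeta Kb p hF f ≠ 0 := by
    intro h0
    apply hf
    exact (qSeriesBeta Kb p hF).toRingHom.injective (h0.trans (map_zero _).symm)
  exact normAlong_ne_zero _ hfin hβf

/-- the divisor of `T w` is divisible by `n` if the divisor of `w` is. -/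
theorem frobAsm_hecke_dvd {h : F₀ ≤ F₁} {p : ℕ} [NeZero p]
    {hF : ∀ y ∈ F₀, qExpand ℚ p y ∈ F₁} (hin : QSeriesInputs Kb h p hF)
    (D : Divisor Kb (laurentBaseChange Kb F₀)) (n : ℤ) {w : laurentBaseChange Kb F₀}
    (hw : w ≠ 0) (hD : ∀ v, n * D v = v.ord w) (v : Place Kb (laurentBaseChange Kb F₀)) :
    n ∣ v.ord (qSeriesHeckeFun h p hF w) := by
  obtain ⟨hα, hβ, hPD, hfin, hFI, hN⟩ := hin
  haveI := hPD
  have h1 := zsmul_correspondence_apply_eq_ord_norm (qSeriesBeta Kb p hF) (qSeriesAlpha Kb h)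
    hβ hα hfin hN hw n hD v
  exact ⟨_, h1.symm⟩

/-- the divisor of `g • w` is divisible by `n` if the divisor of `w` is. -/
theorem frobAsm_smul_dvd (g : SemilinearAut Kb (laurentBaseChange Kb F₀))
    (D : Divisor Kb (laurentBaseChange Kb F₀)) (n : ℤ) {w : laurentBaseChange Kb F₀}
    (hD : ∀ v, n * D v = v.ord w) (v : Place Kb (laurentBaseChange Kb F₀)) :
    n ∣ v.ord (g • w) :=
  ⟨_, (mul_smul_divisor_apply_eq_ord g n hD v).symm⟩

/-! ### the assembly -/

/-- **(P4, fixed exponent)** ASSEMBLY: the KEY LEMMA at the exponent `n ≠ 0`, the twisted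
product formula for the norm (Kronecker), the stability of the Gauss ring under `δ` and the
inputs of the norm correspondence give the function form of the twisted Eichler--Shimura
relation at the exponent `n`. -/
theorem frobPowGenAt_of_keyLemma {h : F₀ ≤ F₁} {p : ℕ} [NeZero p]
    {hF : ∀ y ∈ F₀, qExpand ℚ p y ∈ F₁}
    {δ : laurentBaseChange Kb F₀ ≃ₐ[Kb] laurentBaseChange Kb F₀} {A : ValuationSubring Kb}
    {n : ℕ} (hn : n ≠ 0) (hp : p.Prime) (hA : A.LiesOverPrime p) (hInt : IsIntGen A F₀)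
    (hKL : KeyLemmaGenAt F₀ A n) (hP : NormProductGen h p hF δ) (hδ : GaussStable F₀ A δ)
    (hin : QSeriesInputs Kb h p hF) : FrobPowGenAt h p hF δ A n := by
  intro σ hσ f hf D hD
  haveI : Fact p.Prime := ⟨hp⟩
  haveI : CharP (IsLocalRing.ResidueField A) p := charP_residue_of_liesOver A hp hA
  obtain ⟨c, hc0, hmem, hres⟩ := exists_const_mul_mem_gaussSub hp hA hInt f.2
    (fun h0 => hf (Subtype.ext h0))
  -- the normalised function `w = c f`
  set w : laurentBaseChange Kb F₀ := algebraMap Kb (laurentBaseChange Kb F₀) c * f with hw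
  have hcF : algebraMap Kb (laurentBaseChange Kb F₀) c ≠ 0 := by
    intro h0
    apply hc0
    exact (algebraMap Kb (laurentBaseChange Kb F₀)).injective (h0.trans (map_zero _).symm)
  have hw0 : w ≠ 0 := mul_ne_zero hcF hf
  have hwmem : (w : LaurentSeries Kb) ∈ gaussSub A (laurentBaseChange Kb F₀) := hmem
  have hwres : gaussResFun A (laurentBaseChange Kb F₀) (w : LaurentSeries Kb) ≠ 0 := hres
  -- `g = Φ w`
  obtain ⟨hgmem, hgres⟩ := frobAsm_ratio_mem A p hp hA hInt hP hδ hσ w hwmem hwres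
  set g : laurentBaseChange Kb F₀ := qSeriesHeckeFun h p hF w * (frobAsmDen δ p σ w)⁻¹ with hg
  have hTw0 : qSeriesHeckeFun h p hF w ≠ 0 := frobAsm_hecke_ne_zero hin hw0
  have hDw0 : frobAsmDen δ p σ w ≠ 0 := frobAsmDen_ne_zero δ p σ hw0
  have hg0 : g ≠ 0 := mul_ne_zero hTw0 (inv_ne_zero hDw0)
  -- divisibility of the divisor of `g`
  have hordw : ∀ v : Place Kb (laurentBaseChange Kb F₀), v.ord w = v.ord f := fun v => by
    rw [hw, v.ord_mul hcF hf, place_ord_algebraMap v hc0, zero_add]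
  have hDw : ∀ v : Place Kb (laurentBaseChange Kb F₀),
      (n : ℤ) * (D : Divisor Kb (laurentBaseChange Kb F₀)) v = v.ord w := fun v => by
    rw [hordw, hD]
  have hδw0 : δ w ≠ 0 := fun h0 => hw0 (by
    have := congrArg δ.symm h0
    rwa [AlgEquiv.symm_apply_apply, map_zero] at this)
  have hσw0 : galFunGen F₀ σ (δ w) ≠ 0 := frobAsm_gal_ne_zero σ hδw0
  have hσ'w0 : galFunGen F₀ σ⁻¹ w ≠ 0 := frobAsm_gal_ne_zero σ⁻¹ hw0
  have hdvd : ∀ P : Place Kb (laurentBaseChange Kb F₀), (n : ℤ) ∣ P.ord g := by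
    intro P
    have h1 : (n : ℤ) ∣ P.ord (galFunGen F₀ σ (δ w)) := by
      have := frobAsm_smul_dvd (frobAsmTw δ σ) (D : Divisor Kb (laurentBaseChange Kb F₀))
        (n : ℤ) hDw P
      rwa [frobAsmTw_smul] at this
    have h2 : (n : ℤ) ∣ P.ord (galFunGen F₀ σ⁻¹ w) :=
      frobAsm_smul_dvd (arithmeticGalois F₀ σ⁻¹) (D : Divisor Kb (laurentBaseChange Kb F₀))
        (n : ℤ) hDw P
    have h3 : P.ord (frobAsmDen δ p σ w) =
        P.ord (galFunGen F₀ σ (δ w)) + (p : ℤ) * P.ord (galFunGen F₀ σ⁻¹ w) := by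
      unfold frobAsmDen
      rw [P.ord_mul hσw0 (pow_ne_zero _ hσ'w0), ← zpow_natCast, Place.ord_zpow]
    have h4 := frobAsm_hecke_dvd hin (D : Divisor Kb (laurentBaseChange Kb F₀)) (n : ℤ) hw0 hDw P
    rw [hg, P.ord_mul hTw0 (inv_ne_zero hDw0), P.ord_inv, h3]
    exact dvd_add h4 (Dvd.dvd.neg_right (dvd_add h1 (Dvd.dvd.mul_left h2 _)))
  obtain ⟨k, hk⟩ := hKL g hg0 hdvd hgmem hgres
  have hk0 : k ≠ 0 := by
    rintro rfl
    rw [zero_pow hn] at hk
    exact hg0 hk.symm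
  -- the constant factor
  obtain ⟨d, hd⟩ := frobAsm_hecke_algebraMap h p hF c
  have hσc0 : σ c ≠ 0 := by
    intro h0
    exact hc0 (σ.injective (h0.trans (map_zero σ).symm))
  have hσ'c0 : σ⁻¹ c ≠ 0 := by
    intro h0
    exact hc0 ((σ⁻¹ : GK).injective (h0.trans (map_zero (σ⁻¹ : GK)).symm))
  have hm0 : σ c * (σ⁻¹ c) ^ p ≠ 0 := mul_ne_zero hσc0 (pow_ne_zero _ hσ'c0)
  obtain ⟨b, hb⟩ := IsAlgClosed.exists_pow_nat_eq (c ^ d / (σ c * (σ⁻¹ c) ^ p))
    (Nat.pos_of_ne_zero hn)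
  -- `Φ w = Φ c · Φ f`
  have hTw : qSeriesHeckeFun h p hF w =
      algebraMap Kb (laurentBaseChange Kb F₀) (c ^ d) * qSeriesHeckeFun h p hF f := by
    rw [hw, map_mul, hd]
  have hDwf : frobAsmDen δ p σ w =
      algebraMap Kb (laurentBaseChange Kb F₀) (σ c * (σ⁻¹ c) ^ p) * frobAsmDen δ p σ f := by
    rw [hw, frobAsmDen_mul, frobAsmDen_algebraMap]
  have hcdF : algebraMap Kb (laurentBaseChange Kb F₀) (c ^ d) ≠ 0 := by
    intro h0
    apply pow_ne_zero d hc0
    exact (algebraMap Kb (laurentBaseChange Kb F₀)).injective (h0.trans (map_zero _).symm)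
  have hbpow : algebraMap Kb (laurentBaseChange Kb F₀) b ^ n *
      algebraMap Kb (laurentBaseChange Kb F₀) (σ c * (σ⁻¹ c) ^ p) =
        algebraMap Kb (laurentBaseChange Kb F₀) (c ^ d) := by
    rw [← map_pow, hb, ← map_mul, div_mul_cancel₀ _ hm0]
  refine ⟨algebraMap Kb (laurentBaseChange Kb F₀) b * k⁻¹, ?_⟩
  show (algebraMap Kb (laurentBaseChange Kb F₀) b * k⁻¹) ^ n * qSeriesHeckeFun h p hF f =
    frobAsmDen δ p σ f
  have e1 : k ^ n * frobAsmDen δ p σ w = qSeriesHeckeFun h p hF w := by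
    rw [hk, hg, mul_assoc, inv_mul_cancel₀ hDw0, mul_one]
  rw [hTw, hDwf] at e1
  have hkn : k ^ n ≠ 0 := pow_ne_zero n hk0
  have e2 : algebraMap Kb (laurentBaseChange Kb F₀) (c ^ d) *
      (k ^ n * ((algebraMap Kb (laurentBaseChange Kb F₀) b * k⁻¹) ^ n *
        qSeriesHeckeFun h p hF f)) =
      algebraMap Kb (laurentBaseChange Kb F₀) (c ^ d) * (k ^ n * frobAsmDen δ p σ f) := by
    rw [mul_pow, inv_pow]
    calc algebraMap Kb (laurentBaseChange Kb F₀) (c ^ d) *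
          (k ^ n * (algebraMap Kb (laurentBaseChange Kb F₀) b ^ n * (k ^ n)⁻¹ *
            qSeriesHeckeFun h p hF f))
        = algebraMap Kb (laurentBaseChange Kb F₀) b ^ n *
            (algebraMap Kb (laurentBaseChange Kb F₀) (c ^ d) * qSeriesHeckeFun h p hF f) := by
          field_simp
      _ = algebraMap Kb (laurentBaseChange Kb F₀) b ^ n *
            (k ^ n * (algebraMap Kb (laurentBaseChange Kb F₀) (σ c * (σ⁻¹ c) ^ p) *
              frobAsmDen δ p σ f)) := by rw [e1]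
      _ = (algebraMap Kb (laurentBaseChange Kb F₀) b ^ n *
            algebraMap Kb (laurentBaseChange Kb F₀) (σ c * (σ⁻¹ c) ^ p)) *
            (k ^ n * frobAsmDen δ p σ f) := by ring
      _ = algebraMap Kb (laurentBaseChange Kb F₀) (c ^ d) * (k ^ n * frobAsmDen δ p σ f) := by
          rw [hbpow]
  exact mul_left_cancel₀ hkn (mul_left_cancel₀ hcdF e2)

/-- **(P4)** ASSEMBLY: the KEY LEMMA, the twisted product formula for the norm (Kronecker), the
stability of the Gauss ring under `δ` and the inputs of the norm correspondence give the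
function form of the twisted Eichler--Shimura relation. -/
theorem frobPowGen_of_keyLemma {h : F₀ ≤ F₁} {p : ℕ} [NeZero p]
    {hF : ∀ y ∈ F₀, qExpand ℚ p y ∈ F₁}
    {δ : laurentBaseChange Kb F₀ ≃ₐ[Kb] laurentBaseChange Kb F₀} {A : ValuationSubring Kb}
    (hp : p.Prime) (hA : A.LiesOverPrime p) (hInt : IsIntGen A F₀)
    (hKL : KeyLemmaGen F₀ p A) (hP : NormProductGen h p hF δ) (hδ : GaussStable F₀ A δ)
    (hin : QSeriesInputs Kb h p hF) : FrobPowGen h p hF δ A := by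
  intro n hndvd
  have hn : n ≠ 0 := by
    rintro rfl
    exact hndvd (dvd_zero p)
  exact frobPowGenAt_of_keyLemma hn hp hA hInt (hKL n hndvd) hP hδ hin

end Fermat.Agent.S48WPort
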