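/-
S48 wall (W), block G, part G-PORT (sub-architect helper37), seat P3 FunTwo (helper5).

* `funTwo_ringHom_ext` : two ring homomorphisms on `ℚ̄ · ℚ(S)` that agree on the constants and on
  the generators `S` are equal;
* `galComm_of_isDiamond : IsDiamond M d δ → GalComm (FOne M) δ` : the diamond automorphisms commute
  with the coefficientwise action of `G_ℚ`;
* `funTwo_quadratic_abs` : the quadratic relation `g² δ x - T (g x) + p x = 0` on an `n`-torsion
  class from its function form, for an abstract function field;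
* `funTwo_qSeriesHecke_mk_of_zsmul_eq_div` : norm description of `T_p` on classes `[D]`,
  `n D = div f` (port of `F3G.heckeOperatorAlong_mk_of_zsmul_eq_div`);
* `torsionFrobQuadraticOneAt_of_frobPowOneAt` : (IF-G2 at `ℓ`) from the function form
  `FrobPowOneAt M ℓ`;
* `torsionFrobQuadraticOne_of_frobPowOne` : (IF-G2) from the function form `FrobPowOne M`
  (port of `F3G.torsionFrobQuadratic_of_frobPow`, with the diamond).
-/
import Mathlib
import Fermat.Agent.S48.W.G.Port.DefsAt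
import Fermat.Agent.S48.W.R.AsmAt
import Fermat.Agent.F3.Galois.TorsionReduce

set_option autoImplicit false
set_option linter.style.haveILetI false

noncomputable section

namespace Fermat.Agent.S48WPort

open ModularCurve AlgebraicCurve HahnSeries Fermat.Agent.F3G Fermat.Agent.S48W

local notation "Kb" => AlgebraicClosure ℚ
local notation "GK" => (AlgebraicClosure ℚ ≃ₐ[ℚ] AlgebraicClosure ℚ)

/-! ### abstract function fields -/

section Abs

variable {K F : Type*} [Field K] [Field F] [Algebra K F]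

/-- the ring homomorphism `f ↦ g • f` of a semilinear automorphism. -/
def funTwoSmulHom (g : SemilinearAut K F) : F →+* F :=
  MulSemiringAction.toRingHom (SemilinearAut K F) F g

@[simp]
theorem funTwoSmulHom_apply (g : SemilinearAut K F) (f : F) : funTwoSmulHom g f = g • f := rfl

/-- `f ↦ δ (g • f)`. -/
def funTwoCommL (g : SemilinearAut K F) (δ : F ≃ₐ[K] F) : F →+* F :=
  (δ : F →+* F).comp (funTwoSmulHom g)

/-- `f ↦ g • δ f`. -/
def funTwoCommR (g : SemilinearAut K F) (δ : F ≃ₐ[K] F) : F →+* F :=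
  (funTwoSmulHom g).comp (δ : F →+* F)

theorem funTwoCommL_apply (g : SemilinearAut K F) (δ : F ≃ₐ[K] F) (f : F) :
    funTwoCommL g δ f = δ (g • f) := rfl

theorem funTwoCommR_apply (g : SemilinearAut K F) (δ : F ≃ₐ[K] F) (f : F) :
    funTwoCommR g δ f = g • δ f := rfl

theorem funTwoComm_algebraMap (g : SemilinearAut K F) (δ : F ≃ₐ[K] F) (c : K) :
    funTwoCommL g δ (algebraMap K F c) = funTwoCommR g δ (algebraMap K F c) := by
  rw [funTwoCommL_apply, funTwoCommR_apply, SemilinearAut.smul_algebraMap, δ.commutes,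
    δ.commutes, SemilinearAut.smul_algebraMap]

theorem funTwoComm_of_fixed (g : SemilinearAut K F) (δ : F ≃ₐ[K] F) {a b : F}
    (ha : g • a = a) (hb : g • b = b) (hab : δ a = b) :
    funTwoCommL g δ a = funTwoCommR g δ a := by
  rw [funTwoCommL_apply, funTwoCommR_apply, ha, hab, hb]

theorem funTwoComm_apply_of_eq (g : SemilinearAut K F) (δ : F ≃ₐ[K] F)
    (h : funTwoCommL g δ = funTwoCommR g δ) (f : F) : δ (g • f) = g • δ f :=
  congrArg (fun Φ : F →+* F => Φ f) h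

/-- The divisor of `δ f` is `δ • div f` (torsion form), for a `K`-automorphism `δ`. -/
theorem funTwo_mul_smul_divisor_apply_eq_ord (δ : F ≃ₐ[K] F) (n : ℤ) {D : Divisor K F} {f : F}
    (hD : ∀ v : Place K F, n * D v = v.ord f) (w : Place K F) :
    n * (δ • D) w = w.ord (δ f) := by
  rw [Divisor.smul_apply, hD]
  have h := Place.ord_smul δ (δ⁻¹ • w) f
  rw [smul_inv_smul] at h
  exact h.symm

/-- **abstract form of P3 (b)**: the quadratic relation on an `n`-torsion class from the function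
form of the twisted Eichler-Shimura relation. -/
theorem funTwo_quadratic_abs (g : SemilinearAut K F) (δ : F ≃ₐ[K] F)
    (T : Pic0 K F → Pic0 K F) (Tf : F → F) (n : ℕ) (hn : n ≠ 0) (p : ℕ)
    (hcomm : ∀ f : F, δ (g • f) = g • δ f)
    (hT0 : ∀ f : F, f ≠ 0 → Tf f ≠ 0)
    (hT : ∀ (D : Divisor.degZero (K := K) (F := F)) (f : F), f ≠ 0 →
      (∀ v, (n : ℤ) * (D : Divisor K F) v = v.ord f) →
      ∃ E : Divisor.degZero (K := K) (F := F), T (Pic0.mk D) = Pic0.mk E ∧
        ∀ v, (n : ℤ) * (E : Divisor K F) v = v.ord (Tf f))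
    (g' : SemilinearAut K F) (hg' : g' = g⁻¹)
    (hFP : ∀ f : F, f ≠ 0 → ∀ D : Divisor.degZero (K := K) (F := F),
      (∀ v, (n : ℤ) * (D : Divisor K F) v = v.ord f) →
        ∃ u : F, u ^ n * Tf f = g • (δ f) * (g' • f) ^ p)
    (x : Pic0 K F) (hx : n • x = 0) :
    g • g • (δ • x) - T (g • x) + p • x = 0 := by
  subst hg'
  have hx' : (n : ℤ) • x = 0 := by rwa [natCast_zsmul]
  obtain ⟨D, f, hf, rfl, hD⟩ := exists_div_of_zsmul_eq_zero (n : ℤ) x hx'
  -- the translated data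
  have hf' : g • f ≠ 0 := by simpa using hf
  have hD' : ∀ v, (n : ℤ) * (SemilinearAut.degZeroSMulHom g D : Divisor K F) v
      = v.ord (g • f) :=
    fun v => mul_smul_divisor_apply_eq_ord g (n : ℤ) hD v
  obtain ⟨u, hu⟩ := hFP (g • f) hf' (SemilinearAut.degZeroSMulHom g D) hD'
  rw [inv_smul_smul, hcomm f] at hu
  -- the classes
  have hDδ : ∀ v, (n : ℤ) * (Pic0.degZeroSMulHom δ D : Divisor K F) v = v.ord (δ f) :=
    fun v => funTwo_mul_smul_divisor_apply_eq_ord δ (n : ℤ) hD v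
  have hD₁ : ∀ v, (n : ℤ) *
      (SemilinearAut.degZeroSMulHom g (Pic0.degZeroSMulHom δ D) : Divisor K F) v
        = v.ord (g • δ f) :=
    fun v => mul_smul_divisor_apply_eq_ord g (n : ℤ) hDδ v
  have hD₂ : ∀ v, (n : ℤ) *
      (SemilinearAut.degZeroSMulHom g
        (SemilinearAut.degZeroSMulHom g (Pic0.degZeroSMulHom δ D)) : Divisor K F) v
      = v.ord (g • (g • δ f)) :=
    fun v => mul_smul_divisor_apply_eq_ord g (n : ℤ) hD₁ v
  have hgg : g • (g • δ f) ≠ 0 := by simpa using hf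
  obtain ⟨E, hE, hEord⟩ := hT (SemilinearAut.degZeroSMulHom g D) (g • f) hf' hD'
  rw [Pic0.smul_mk δ D, SemilinearAut.pic0_smul_mk g, SemilinearAut.pic0_smul_mk g,
    SemilinearAut.pic0_smul_mk g, hE]
  exact mk_sub_add_nsmul_eq_zero_of_pow n hn p _ E D hgg (hT0 _ hf') hf hD₂ hEord hD hu

end Abs

/-! ### an extensionality lemma -/

section Ext

variable {L : Type*} [Field L] [Algebra ℚ L]

/-- Two ring homomorphisms from `L · F₀`, `F₀ = ℚ(S)`, to a field that agree on the constants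
and on the generators `S` are equal. -/
theorem funTwo_ringHom_ext {F₀ : IntermediateField ℚ (LaurentSeries ℚ)}
    (S : Set (LaurentSeries ℚ)) (hS : ∀ x ∈ S, x ∈ F₀)
    (hgen : ∀ z ∈ F₀, z ∈ IntermediateField.adjoin ℚ S) {R : Type*} [Field R]
    (Φ₁ Φ₂ : ↥(laurentBaseChange L F₀) →+* R)
    (hc : ∀ c : L, Φ₁ (algebraMap L _ c) = Φ₂ (algebraMap L _ c))
    (hg : ∀ x ∈ S, ∀ hx : coeffEmb L x ∈ laurentBaseChange L F₀,
      Φ₁ ⟨coeffEmb L x, hx⟩ = Φ₂ ⟨coeffEmb L x, hx⟩) :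
    Φ₁ = Φ₂ := by
  -- first on the rational function field
  have hrat : ∀ z : LaurentSeries ℚ, z ∈ IntermediateField.adjoin ℚ S →
      ∃ h : coeffEmb L z ∈ laurentBaseChange L F₀,
        Φ₁ ⟨coeffEmb L z, h⟩ = Φ₂ ⟨coeffEmb L z, h⟩ := by
    intro z hz
    induction hz using IntermediateField.adjoin_induction with
    | mem x hx =>
      exact ⟨coeffEmb_mem_laurentBaseChange L (hS x hx), hg x hx _⟩
    | algebraMap c =>
      have h1 : coeffEmb L (algebraMap ℚ (LaurentSeries ℚ) c) =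
          algebraMap L (LaurentSeries L) (algebraMap ℚ L c) := by
        rw [eq_ratCast, map_ratCast, eq_ratCast, map_ratCast]
      have hm : coeffEmb L (algebraMap ℚ (LaurentSeries ℚ) c) ∈ laurentBaseChange L F₀ := by
        rw [h1]
        exact (laurentBaseChange L F₀).algebraMap_mem _
      refine ⟨hm, ?_⟩
      have h3 : (⟨coeffEmb L (algebraMap ℚ (LaurentSeries ℚ) c), hm⟩ : ↥(laurentBaseChange L F₀))
          = algebraMap L _ (algebraMap ℚ L c) := Subtype.ext h1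
      rw [h3]
      exact hc _
    | add x y _ _ hx hy =>
      obtain ⟨h1, e1⟩ := hx
      obtain ⟨h2, e2⟩ := hy
      refine ⟨by rw [map_add]; exact add_mem h1 h2, ?_⟩
      have : (⟨coeffEmb L (x + y), by rw [map_add]; exact add_mem h1 h2⟩ :
          ↥(laurentBaseChange L F₀)) = ⟨_, h1⟩ + ⟨_, h2⟩ := Subtype.ext (map_add _ _ _)
      rw [this, map_add, map_add, e1, e2]
    | inv x _ hx =>
      obtain ⟨h1, e1⟩ := hx
      refine ⟨by rw [map_inv₀]; exact inv_mem h1, ?_⟩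
      have : (⟨coeffEmb L x⁻¹, by rw [map_inv₀]; exact inv_mem h1⟩ :
          ↥(laurentBaseChange L F₀)) = (⟨_, h1⟩ : ↥(laurentBaseChange L F₀))⁻¹ :=
        Subtype.ext (map_inv₀ _ _)
      rw [this, map_inv₀, map_inv₀, e1]
    | mul x y _ _ hx hy =>
      obtain ⟨h1, e1⟩ := hx
      obtain ⟨h2, e2⟩ := hy
      refine ⟨by rw [map_mul]; exact mul_mem h1 h2, ?_⟩
      have : (⟨coeffEmb L (x * y), by rw [map_mul]; exact mul_mem h1 h2⟩ :
          ↥(laurentBaseChange L F₀)) = ⟨_, h1⟩ * ⟨_, h2⟩ := Subtype.ext (map_mul _ _ _)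
      rw [this, map_mul, map_mul, e1, e2]
  have hall : ∀ x : LaurentSeries L, x ∈ laurentBaseChange L F₀ →
      ∃ h : x ∈ laurentBaseChange L F₀, Φ₁ ⟨x, h⟩ = Φ₂ ⟨x, h⟩ := by
    intro x hx
    rw [mem_laurentBaseChange_iff] at hx
    induction hx using Subfield.closure_induction with
    | mem y hy =>
      rcases hy with ⟨a, rfl⟩ | ⟨z, hz, rfl⟩
      · exact ⟨(laurentBaseChange L F₀).algebraMap_mem _, hc a⟩
      · exact hrat z (hgen z hz)
    | one => exact ⟨one_mem _, by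
        have : (⟨1, one_mem _⟩ : ↥(laurentBaseChange L F₀)) = 1 := rfl
        rw [this, map_one, map_one]⟩
    | add x y _ _ hx hy =>
      obtain ⟨h1, e1⟩ := hx
      obtain ⟨h2, e2⟩ := hy
      refine ⟨add_mem h1 h2, ?_⟩
      have : (⟨x + y, add_mem h1 h2⟩ : ↥(laurentBaseChange L F₀)) = ⟨_, h1⟩ + ⟨_, h2⟩ := rfl
      rw [this, map_add, map_add, e1, e2]
    | neg x _ hx =>
      obtain ⟨h1, e1⟩ := hx
      refine ⟨neg_mem h1, ?_⟩
      have : (⟨-x, neg_mem h1⟩ : ↥(laurentBaseChange L F₀)) = -⟨_, h1⟩ := rfl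
      rw [this, map_neg, map_neg, e1]
    | inv x _ hx =>
      obtain ⟨h1, e1⟩ := hx
      refine ⟨inv_mem h1, ?_⟩
      have : (⟨x⁻¹, inv_mem h1⟩ : ↥(laurentBaseChange L F₀))
          = (⟨_, h1⟩ : ↥(laurentBaseChange L F₀))⁻¹ := rfl
      rw [this, map_inv₀, map_inv₀, e1]
    | mul x y _ _ hx hy =>
      obtain ⟨h1, e1⟩ := hx
      obtain ⟨h2, e2⟩ := hy
      refine ⟨mul_mem h1 h2, ?_⟩
      have : (⟨x * y, mul_mem h1 h2⟩ : ↥(laurentBaseChange L F₀)) = ⟨_, h1⟩ * ⟨_, h2⟩ := rfl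
      rw [this, map_mul, map_mul, e1, e2]
  ext ⟨x, hx⟩
  obtain ⟨_, e⟩ := hall x hx
  exact e

/-- the coefficientwise Galois action fixes the series with rational coefficients. -/
theorem funTwo_arithmeticGalois_smul_coeffEmb (F₀ : IntermediateField ℚ (LaurentSeries ℚ))
    (σ : L ≃ₐ[ℚ] L) (x : LaurentSeries ℚ) (hx : coeffEmb L x ∈ laurentBaseChange L F₀) :
    arithmeticGalois F₀ σ • (⟨coeffEmb L x, hx⟩ : laurentBaseChange L F₀) = ⟨coeffEmb L x, hx⟩ :=
  Subtype.ext (by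
    rw [coe_arithmeticGalois_smul]
    exact coeffMap_coeffEmb σ x)

end Ext


/-! ### automorphisms defined over `ℚ` commute with the Galois action -/

section GalCommGen

variable {L : Type*} [Field L] [Algebra ℚ L] {F₀ : IntermediateField ℚ (LaurentSeries ℚ)}

/-- an `L`-automorphism of `L · F₀`, `F₀ = ℚ(S)`, which maps the generators `S` to series with
rational coefficients commutes with the coefficientwise action of `Aut(L/ℚ)`: equality of ring
homomorphisms. -/
theorem funTwo_comm_eq (S : Set (LaurentSeries ℚ)) (hS : ∀ x ∈ S, x ∈ F₀)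
    (hgen : ∀ z ∈ F₀, z ∈ IntermediateField.adjoin ℚ S)
    (δ : laurentBaseChange L F₀ ≃ₐ[L] laurentBaseChange L F₀)
    (hδ : ∀ x ∈ S, ∀ hx : coeffEmb L x ∈ laurentBaseChange L F₀,
      ∃ (y : LaurentSeries ℚ) (hy : coeffEmb L y ∈ laurentBaseChange L F₀),
        δ ⟨coeffEmb L x, hx⟩ = ⟨coeffEmb L y, hy⟩)
    (σ : L ≃ₐ[ℚ] L) :
    funTwoCommL (arithmeticGalois F₀ σ) δ = funTwoCommR (arithmeticGalois F₀ σ) δ :=
  funTwo_ringHom_ext S hS hgen _ _ (fun c => funTwoComm_algebraMap _ δ c)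
    (fun x hx hmem => by
      obtain ⟨y, hy, hxy⟩ := hδ x hx hmem
      exact funTwoComm_of_fixed _ δ (funTwo_arithmeticGalois_smul_coeffEmb F₀ σ x hmem)
        (funTwo_arithmeticGalois_smul_coeffEmb F₀ σ y hy) hxy)

end GalCommGen

/-- the diamond automorphisms: equality of ring homomorphisms. -/
theorem funTwo_comm_eq_of_isDiamond {M : ℕ} [NeZero M] {d : (ZMod M)ˣ}
    {δ : FOneBar M ≃ₐ[Kb] FOneBar M} (hδ : IsDiamond M d δ) (σ : GK) :
    funTwoCommL (arithmeticGalois (FOne M) σ) δ = funTwoCommR (arithmeticGalois (FOne M) σ) δ := by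
  refine funTwo_comm_eq (L := Kb) (F₀ := FOne M) (genOne M)
    (fun x hx => IntermediateField.subset_adjoin ℚ _ hx) (fun z hz => hz) δ ?_ σ
  rintro x (hx | ⟨a, ha, rfl⟩) hmem
  · exact ⟨x, hmem, hδ.1 x hx hmem⟩
  · have hda : (d : ZMod M) * a ≠ 0 := by
      intro h0
      apply ha
      have := congrArg (fun z => ((d⁻¹ : (ZMod M)ˣ) : ZMod M) * z) h0
      simpa using this
    have h₂ : coeffEmb Kb (fricke M ((d : ZMod M) * a)) ∈ FOneBar M :=
      coeffEmb_mem_laurentBaseChange Kb (fricke_mem M hda)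
    exact ⟨_, h₂, hδ.2 a ha hmem h₂⟩

/-- **P3 (a)**: a diamond automorphism commutes with the coefficientwise action of `G_ℚ`. -/
theorem galComm_of_isDiamond {M : ℕ} [NeZero M] {d : (ZMod M)ˣ}
    {δ : FOneBar M ≃ₐ[Kb] FOneBar M} (hδ : IsDiamond M d δ) : GalComm (FOne M) δ :=
  fun σ f => funTwoComm_apply_of_eq _ δ (funTwo_comm_eq_of_isDiamond hδ σ) f

/-! ### norm description of `T_p` -/

section NormDesc

variable {L : Type*} [Field L] [Algebra ℚ L]
variable {F₀ F₁ : IntermediateField ℚ (LaurentSeries ℚ)}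

/-- `T f := Norm (f(q^p))` over an arbitrary field of coefficients. -/
def funTwoHeckeFun (L : Type*) [Field L] [Algebra ℚ L] (h : F₀ ≤ F₁) (p : ℕ) [NeZero p]
    (hF : ∀ y ∈ F₀, qExpand ℚ p y ∈ F₁) :
    laurentBaseChange L F₀ →* laurentBaseChange L F₀ :=
  (normAlong (qSeriesAlpha L h)).comp (qSeriesBeta L p hF : _ →* _)

theorem funTwoHeckeFun_eq_qSeriesHeckeFun (h : F₀ ≤ F₁) (p : ℕ) [NeZero p]
    (hF : ∀ y ∈ F₀, qExpand ℚ p y ∈ F₁) :
    funTwoHeckeFun Kb h p hF = qSeriesHeckeFun h p hF := rfl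

theorem funTwoHeckeFun_ne_zero (h : F₀ ≤ F₁) (p : ℕ) [NeZero p]
    (hF : ∀ y ∈ F₀, qExpand ℚ p y ∈ F₁) (hI : QSeriesInputs L h p hF)
    {f : laurentBaseChange L F₀} (hf : f ≠ 0) : funTwoHeckeFun L h p hF f ≠ 0 := by
  obtain ⟨hα, hβ, hP, hfin, hFI, hN⟩ := hI
  have hβf : qSeriesBeta L p hF f ≠ 0 := by simpa using hf
  exact normAlong_ne_zero _ hfin hβf

/-- **Norm description of `T_p`** (port of `F3G.heckeOperatorAlong_mk_of_zsmul_eq_div`). -/
theorem funTwo_qSeriesHecke_mk_of_zsmul_eq_div (h : F₀ ≤ F₁) (p : ℕ) [NeZero p]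
    (hF : ∀ y ∈ F₀, qExpand ℚ p y ∈ F₁) (hI : QSeriesInputs L h p hF)
    (D : Divisor.degZero (K := L) (F := laurentBaseChange L F₀))
    (n : ℤ) {f : laurentBaseChange L F₀} (hf : f ≠ 0)
    (hD : ∀ v, n * (D : Divisor L _) v = v.ord f) :
    ∃ E : Divisor.degZero (K := L) (F := laurentBaseChange L F₀),
      qSeriesHecke L h p hF (Pic0.mk D) = Pic0.mk E ∧
        ∀ v, n * (E : Divisor L _) v = v.ord (funTwoHeckeFun L h p hF f) := by
  have hI' := hI
  obtain ⟨hα, hβ, hP, hfin, hFI, hN⟩ := hI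
  haveI := hP
  refine ⟨Pic0.degZeroCorrespondence (qSeriesBeta L p hF) (qSeriesAlpha L h) hβ hα hFI D,
    ?_, fun v => ?_⟩
  · unfold qSeriesHecke
    rw [dif_pos hI']
    rfl
  · exact zsmul_correspondence_apply_eq_ord_norm _ _ hβ hα hfin hN hf n hD v

end NormDesc

/-! ### (IF-G2) from the function form -/

/-- the quadratic relation at level `Γ₁(M)` for one Frobenius `σ`, one diamond automorphism `δ`
and one torsion order `n`. -/
theorem funTwo_quadratic_one {M : ℕ} [NeZero M] (p : ℕ) (hp : p.Prime) [NeZero p]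
    (hin : HeckeInputsOne M p) {d : (ZMod M)ˣ} (δ : FOneBar M ≃ₐ[Kb] FOneBar M)
    (hδ : IsDiamond M d δ) (σ : GK) (n : ℕ) (hn : n ≠ 0)
    (hFP : ∀ f : FOneBar M, f ≠ 0 → ∀ D : Divisor.degZero (K := Kb) (F := FOneBar M),
      (∀ v, (n : ℤ) * (D : Divisor Kb (FOneBar M)) v = v.ord f) →
        ∃ u : FOneBar M,
          u ^ n * qSeriesHeckeFun (FOne_le_FOneP M p) p (fun _ hy => qExpand_mem_FOneP M p hy) f
            = galFunGen (FOne M) σ (δ f) * galFunGen (FOne M) σ⁻¹ f ^ p)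
    (x : JOne M) (hx : n • x = 0) :
    σ • σ • (δ • x) - heckeOne M ⟨p, hp⟩ (σ • x) + p • x = 0 :=
  funTwo_quadratic_abs (arithmeticGalois (FOne M) σ) δ (fun y => heckeOne M ⟨p, hp⟩ y)
    (fun f => qSeriesHeckeFun (FOne_le_FOneP M p) p (fun _ hy => qExpand_mem_FOneP M p hy) f)
    n hn p (fun f => galComm_of_isDiamond hδ σ f)
    (fun _ hf => funTwoHeckeFun_ne_zero (L := Kb) (FOne_le_FOneP M p) p
      (fun _ hy => qExpand_mem_FOneP M p hy) hin hf)
    (fun D _ hf hD => funTwo_qSeriesHecke_mk_of_zsmul_eq_div (L := Kb) (FOne_le_FOneP M p) p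
      (fun _ hy => qExpand_mem_FOneP M p hy) hin D (n : ℤ) hf hD)
    (arithmeticGalois (FOne M) σ⁻¹) (map_inv (arithmeticGalois (FOne M)) σ)
    hFP x hx

/-- the diamond operator is the action of any diamond automorphism. -/
theorem funTwo_diamondOne_apply {M : ℕ} [NeZero M] (d : (ZMod M)ˣ)
    (hdia : ∃ δ : FOneBar M ≃ₐ[Kb] FOneBar M, IsDiamond M d δ) (x : JOne M) :
    diamondOne M d x = hdia.choose • x := by
  unfold diamondOne
  rw [dif_pos hdia]
  rfl

/-- **P3 (b) at `ℓ`**: the function form of the twisted Eichler-Shimura relation at the torsion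
order `ℓ` gives (IF-G2 at `ℓ`). -/
theorem torsionFrobQuadraticOneAt_of_frobPowOneAt {M : ℕ} [NeZero M] {ℓ : ℕ} (hℓ : ℓ ≠ 0)
    (hFP : FrobPowOneAt M ℓ)
    (hin : ∀ p : Nat.Primes,
      (haveI : NeZero (p : ℕ) := ⟨p.2.ne_zero⟩; HeckeInputsOne M p))
    (hdia : ∀ d : (ZMod M)ˣ, ∃ δ : FOneBar M ≃ₐ[Kb] FOneBar M, IsDiamond M d δ) :
    TorsionFrobQuadraticOneAt M ℓ := by
  intro p hp hpM hpℓ A hA σ hσ x hx
  haveI : NeZero p := ⟨hp.ne_zero⟩
  rw [funTwo_diamondOne_apply _ (hdia (ZMod.unitOfCoprime p hpM))]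
  exact funTwo_quadratic_one p hp (hin ⟨p, hp⟩) _ (hdia (ZMod.unitOfCoprime p hpM)).choose_spec
    σ ℓ hℓ (fun f hf D hD => hFP p hp hpM hpℓ _ (hdia (ZMod.unitOfCoprime p hpM)).choose_spec
      A hA σ hσ f hf D hD) x hx

/-- **P3 (b)**: the function form of the twisted Eichler-Shimura relation gives (IF-G2). -/
theorem torsionFrobQuadraticOne_of_frobPowOne {M : ℕ} [NeZero M] (hFP : FrobPowOne M)
    (hin : ∀ p : Nat.Primes,
      (haveI : NeZero (p : ℕ) := ⟨p.2.ne_zero⟩; HeckeInputsOne M p))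
    (hdia : ∀ d : (ZMod M)ˣ, ∃ δ : FOneBar M ≃ₐ[Kb] FOneBar M, IsDiamond M d δ) :
    TorsionFrobQuadraticOne M := by
  intro n p hp hpM hndvd A hA σ hσ x hx
  haveI : NeZero p := ⟨hp.ne_zero⟩
  have hn : n ≠ 0 := by
    rintro rfl
    exact hndvd (dvd_zero p)
  rw [funTwo_diamondOne_apply _ (hdia (ZMod.unitOfCoprime p hpM))]
  exact funTwo_quadratic_one p hp (hin ⟨p, hp⟩) _ (hdia (ZMod.unitOfCoprime p hpM)).choose_spec
    σ n hn (fun f hf D hD => hFP p hp hpM _ (hdia (ZMod.unitOfCoprime p hpM)).choose_spec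
      A hA n hndvd σ hσ f hf D hD) x hx

end Fermat.Agent.S48WPort
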