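/-
S48 wall (W), block G, part G-PORT, seat P2 KeyAsm (helper37):

  `keyLemmaGen_of_redInput : p.Prime → A.LiesOverPrime p → IsIntGen A F₀ → RedInput A F₀ →
      KeyLemmaGen F₀ p A`

the KEY LEMMA for `F = ℚ̄ F₀` at the place `A` from the good reduction input of G-RED.
Port of `Lib/GaussInt/KeyAsm.lean` / `KeyAsmPrime.lean` (helper68) with the ABSTRACT residue field
`resField A F₀` (for which (R3) is formal).
-/
import Mathlib
import Fermat.Agent.Lib.GaussInt.KeyAsm
import Fermat.Agent.S48.W.G.Red.Defs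
import Fermat.Agent.S48.W.G.Red.Res
import Fermat.Agent.S48.W.G.Red.Int
import Fermat.Agent.S48.W.G.Port.Defs

set_option autoImplicit false
set_option synthInstance.maxHeartbeats 400000
set_option maxHeartbeats 1000000
set_option linter.style.haveILetI false

noncomputable section

namespace Fermat.Agent.S48WPort

open ModularCurve AlgebraicCurve IntermediateField Fermat.Agent.RR Fermat.Agent.Deuring
  Fermat.Agent.GaussInt Fermat.Agent.S48WG

local notation "Kb" => AlgebraicClosure ℚ

variable {A : ValuationSubring Kb} {F₀ : IntermediateField ℚ (LaurentSeries ℚ)} {p : ℕ}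

/-- (R3) for the abstract residue field: residues of the Gauss ring lie in `resField A F₀`. -/
theorem keyAsm_hR3 (A : ValuationSubring Kb) (F₀ : IntermediateField ℚ (LaurentSeries ℚ)) :
    ∀ f ∈ gaussSub A (laurentBaseChange Kb F₀),
      gaussResFun A (laurentBaseChange Kb F₀) f ∈ resField A F₀ := fun f hf =>
  IntermediateField.subset_adjoin _ _ ⟨f, hf, rfl⟩

/-- the Gauss valuation of `F = ℚ̄ F₀` at `A`, with residue field `resField A F₀`, as a
`Deuring.ValSetup`. -/
def keyAsmSetup (h : GaussHyp A F₀ p) (hsurj : ResSurj A F₀)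
    (hF : IsRRField Kb ↥(laurentBaseChange Kb F₀))
    (hFk : IsRRField (IsLocalRing.ResidueField A) ↥(resField A F₀)) :
    ValSetup Kb ↥(laurentBaseChange Kb F₀) (IsLocalRing.ResidueField A) ↥(resField A F₀) :=
  gaussValSetup h (resField A F₀) (keyAsm_hR3 A F₀) hsurj hF hFk

theorem keyAsmSetup_red (h : GaussHyp A F₀ p) (hsurj : ResSurj A F₀)
    (hF : IsRRField Kb ↥(laurentBaseChange Kb F₀))
    (hFk : IsRRField (IsLocalRing.ResidueField A) ↥(resField A F₀))
    {x : LaurentSeries Kb} (hx : x ∈ gaussSub A (laurentBaseChange Kb F₀)) :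
    (keyAsmSetup h hsurj hF hFk).red (barElt hx) = resElt hx := by
  apply Subtype.ext
  exact coe_gaussValSetup_red h (resField A F₀) (keyAsm_hR3 A F₀) hsurj hF hFk
    (f := barElt hx) hx

/-- **seat P2**: the KEY LEMMA at the place `A` from the good reduction input. -/
theorem keyLemmaGen_of_redInput (hp : p.Prime) (hA : A.LiesOverPrime p) (hint : IsIntGen A F₀)
    (hred : RedInput A F₀) : KeyLemmaGen F₀ p A := by
  intro n hpn g _ hdiv hgO hgres
  haveI : IsAlgClosed (IsLocalRing.ResidueField A) := isAlgClosed_residue A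
  haveI : Infinite (IsLocalRing.ResidueField A) := infinite_residue A
  obtain ⟨hF, hFk, hsurj, hgen, x, hx, hxt, hxfd, hyt, hyfd, hysep, hle⟩ := hred
  have h : GaussHyp A F₀ p := ⟨hp, hA, hint⟩
  set S := keyAsmSetup h hsurj hF hFk with hS
  have hredx : S.red (barElt hx) = resElt hx := keyAsmSetup_red h hsurj hF hFk hx
  have hn0 : ((n : ℕ) : Kb) ≠ 0 :=
    Nat.cast_ne_zero.mpr (fun h0 => hpn (h0 ▸ dvd_zero p))
  have hnA : ((n : Kb))⁻¹ ∈ S.A := natCast_inv_mem_of_not_dvd A hp hA hpn
  have hgO' : g ∈ S.Ov := hgO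
  have hρ : S.ρ ⟨g, hgO'⟩ = 1 := Subtype.ext hgres
  have hxO : barElt hx ∈ S.Ov := hx
  have hyt' : Transcendental (IsLocalRing.ResidueField A) (S.red (barElt hx)) := by
    rw [hredx]; exact hyt
  have hyfd' : FiniteDimensional (IsLocalRing.ResidueField A)⟮S.red (barElt hx)⟯
      ↥(resField A F₀) := by
    rw [hredx]; exact hyfd
  have hysep' : Algebra.IsSeparable (IsLocalRing.ResidueField A)⟮S.red (barElt hx)⟯
      ↥(resField A F₀) := by
    rw [hredx]; exact hysep
  have hle' : Divisor.degree (poleDiv S.hF (barElt hx)) ≤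
      Divisor.degree (poleDiv S.hFk (S.red (barElt hx))) := by
    haveI := hxfd
    rw [Fermat.Agent.RRHur.degree_poleDiv_eq_finrank S.hF hxt,
      Fermat.Agent.RRHur.degree_poleDiv_eq_finrank S.hFk hyt']
    rw [hredx]
    exact_mod_cast hle
  exact Fermat.Agent.S18Key.exists_pow_eq_of_valSetup S
    (hasLattice_gaussValSetup h (resField A F₀) (keyAsm_hR3 A F₀) hsurj hF hFk) hgen
    (fun r hpush hGR hdeg =>
      Fermat.Agent.S18Key.nonempty_baseFn S r hpush hGR hdeg (barElt hx) hxO hyt' hle')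
    n hn0 hnA g hgO' hρ hdiv

/-- the KEY LEMMA at level `Γ₁(M)` from the deliverable of G-RED. -/
theorem keyLemmaAtOne_of_goodRedOne (M : ℕ) [NeZero M]
    (h : GoodRedOne M) : KeyLemmaAtOne M := fun p hp hpM A hA =>
  keyLemmaGen_of_redInput hp hA (Fermat.Agent.S48W.isIntGen_FOne A M) (h p hp hpM A hA)

end Fermat.Agent.S48WPort
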