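/-
S48 wall (W), block G, part G-PORT: FINAL WIRING at a fixed torsion order `ℓ` (helper18).

Inputs (all at level `Γ₁(M)`):
* `KeyLemmaOneAt M ℓ`    the KEY LEMMA at the exponent `ℓ`, all places over `p ∤ M ℓ`
                         (from `GoodRedOne M` by P2, `keyLemmaOneAt_of_goodRedOne`);
* `DiamondBaseOne M`     at every place over `p ∤ M`: a base function of the Gauss ring fixed by
                         the diamond automorphisms, with its degree inequality
                         (`DiamondBaseOne.of_divisorExpansions`: a base function `j(q^d)`, `d ∣ M`,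
                         is fixed by the diamonds);
* `NormProductOne M`     the twisted product formula (Kronecker, P6);
* `HeckeInputsOne M p`   the inputs of the norm correspondence (block H);
* the diamond automorphisms exist (block H).

Outputs: (IF-G1 at `ℓ`) `TorsionUnramifiedOneAt M ℓ` and (IF-G2 at `ℓ`)
`TorsionFrobQuadraticOneAt M ℓ`  (`gPort_final`, `gPort_final_of_goodRedOne`).

Chain: P5 `gaussStable_of_baseFun` gives `DiamondGaussOne M`; P4 `frobPowGenAt_of_keyLemma` gives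
`FrobPowOneAt M ℓ`; P3 `torsionFrobQuadraticOneAt_of_frobPowOneAt` gives (IF-G2 at `ℓ`);
P1 `torsionUnramifiedOneAt_of_keyLemmaOneAt` gives (IF-G1 at `ℓ`).
-/
import Mathlib
import Fermat.Agent.S48.W.G.Port.FunOneAt
import Fermat.Agent.S48.W.G.Port.FunTwo
import Fermat.Agent.S48.W.G.Port.KeyAsm
import Fermat.Agent.S48.W.G.Port.FrobAsm
import Fermat.Agent.S48.W.G.Port.Diam
import Fermat.Agent.S48.W.G.Red.Res

set_option autoImplicit false
set_option synthInstance.maxHeartbeats 400000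
set_option linter.style.haveILetI false
set_option linter.unusedSectionVars false

noncomputable section

namespace Fermat.Agent.S48WPort

open ModularCurve AlgebraicCurve IntermediateField Fermat.Agent.GaussInt Fermat.Agent.S48W
  Fermat.Agent.S48WG

local notation "Kb" => AlgebraicClosure ℚ
local notation "GK" => (AlgebraicClosure ℚ ≃ₐ[ℚ] AlgebraicClosure ℚ)

variable {M : ℕ} [NeZero M]

/-! ### the input of P5 at level `Γ₁(M)` -/

/-- **the base function input of P5**: at every place `A` over a prime `p ∤ M` there is a base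
function `x` of the Gauss ring of `ℚ̄ F₁(M)`, fixed by all diamond automorphisms, with `x̄`
transcendental and `[F : ℚ̄(x)] ≤ [F_k : k(x̄)]`. -/
def DiamondBaseOne (M : ℕ) [NeZero M] : Prop :=
  ∀ (p : ℕ), p.Prime → ¬ p ∣ M → ∀ A : ValuationSubring Kb, A.LiesOverPrime p →
    ∃ (x : LaurentSeries Kb) (hx : x ∈ gaussSub A (laurentBaseChange Kb (FOne M))),
      Transcendental (IsLocalRing.ResidueField A) (resElt hx) ∧
      FiniteDimensional Kb⟮barElt hx⟯ ↥(laurentBaseChange Kb (FOne M)) ∧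
      Module.finrank Kb⟮barElt hx⟯ ↥(laurentBaseChange Kb (FOne M)) ≤
        Module.finrank (IsLocalRing.ResidueField A)⟮resElt hx⟯ ↥(resField A (FOne M)) ∧
      ∀ (d : (ZMod M)ˣ) (δ : FOneBar M ≃ₐ[Kb] FOneBar M), IsDiamond M d δ →
        δ (barElt hx) = barElt hx

/-- the diamond automorphisms fix the functions `j(q^d)`, `d ∣ M`. -/
theorem final_isDiamond_barElt {d : (ZMod M)ˣ} {δ : FOneBar M ≃ₐ[Kb] FOneBar M}
    (hδ : IsDiamond M d δ) {A : ValuationSubring Kb} {y : LaurentSeries ℚ}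
    (hy : y ∈ divisorExpansions M)
    (hx : coeffEmb Kb y ∈ gaussSub A (laurentBaseChange Kb (FOne M))) :
    δ (barElt hx) = barElt hx :=
  hδ.1 y hy (mem_of_mem_gaussSub hx)

/-- a base function `j(q^d)`, `d ∣ M`, at every place over `p ∤ M` gives the input of P5. -/
theorem DiamondBaseOne.of_divisorExpansions
    (h : ∀ (p : ℕ), p.Prime → ¬ p ∣ M → ∀ A : ValuationSubring Kb, A.LiesOverPrime p →
      ∃ (y : LaurentSeries ℚ) (_ : y ∈ divisorExpansions M)
        (hx : coeffEmb Kb y ∈ gaussSub A (laurentBaseChange Kb (FOne M))),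
        Transcendental (IsLocalRing.ResidueField A) (resElt hx) ∧
        FiniteDimensional Kb⟮barElt hx⟯ ↥(laurentBaseChange Kb (FOne M)) ∧
        Module.finrank Kb⟮barElt hx⟯ ↥(laurentBaseChange Kb (FOne M)) ≤
          Module.finrank (IsLocalRing.ResidueField A)⟮resElt hx⟯ ↥(resField A (FOne M))) :
    DiamondBaseOne M := by
  intro p hp hpM A hA
  obtain ⟨y, hy, hx, htr, hfin, hdeg⟩ := h p hp hpM A hA
  exact ⟨coeffEmb Kb y, hx, htr, hfin, hdeg, fun d δ hδ => final_isDiamond_barElt hδ hy hx⟩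

/-- **P5 at level `Γ₁(M)`**: the diamond automorphisms preserve the Gauss rings. -/
theorem diamondGaussOne_of_diamondBaseOne (h : DiamondBaseOne M) : DiamondGaussOne M := by
  intro p hp hpM A hA d δ hδ
  obtain ⟨x, hx, htr, hfin, hdeg, hfix⟩ := h p hp hpM A hA
  exact gaussStable_of_baseFun hp hA (isIntGen_FOne A M) (resSurj A (FOne M)) hx htr hfin hdeg
    (hfix d δ hδ)

/-! ### P2 and P4 at level `Γ₁(M)` -/

/-- **P2 at `ℓ`**: the KEY LEMMA at the exponent `ℓ` from the deliverable of G-RED. -/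
theorem keyLemmaOneAt_of_goodRedOne (h : GoodRedOne M) (ℓ : ℕ) : KeyLemmaOneAt M ℓ :=
  keyLemmaOneAt_of (keyLemmaAtOne_of_goodRedOne M h) ℓ

/-- **P4 at level `Γ₁(M)`, exponent `ℓ`**: the function form of the twisted Eichler-Shimura
relation. -/
theorem frobPowOneAt_of_keyLemmaOneAt {ℓ : ℕ} (hℓ : ℓ.Prime) (hKL : KeyLemmaOneAt M ℓ)
    (hDG : DiamondGaussOne M) (hNP : NormProductOne M)
    (hin : ∀ p : Nat.Primes,
      (haveI : NeZero (p : ℕ) := ⟨p.2.ne_zero⟩; HeckeInputsOne M p)) :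
    FrobPowOneAt M ℓ := by
  intro p _ hp hpM hpℓ δ hδ A hA
  have hpM' : ¬ p ∣ M := fun hd => hp.one_lt.ne' (Nat.Coprime.eq_one_of_dvd hpM hd)
  have hpMℓ : ¬ p ∣ M * ℓ := by
    intro hd
    rcases (Nat.Prime.dvd_mul hp).mp hd with h1 | h1
    · exact hpM' h1
    · exact hpℓ ((Nat.prime_dvd_prime_iff_eq hp hℓ).mp h1)
  exact frobPowGenAt_of_keyLemma hℓ.ne_zero hp hA (isIntGen_FOne A M) (hKL p hp hpMℓ A hA)
    (hNP p hp hpM δ hδ) (hDG p hp hpM' A hA _ δ hδ) (hin ⟨p, hp⟩)

/-! ### the final wiring -/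

/-- **G-PORT, final wiring at `ℓ`** (from the KEY LEMMA at the exponent `ℓ`). -/
theorem gPort_final {ℓ : ℕ} (hℓ : ℓ.Prime) (hKL : KeyLemmaOneAt M ℓ) (hB : DiamondBaseOne M)
    (hNP : NormProductOne M)
    (hin : ∀ p : Nat.Primes,
      (haveI : NeZero (p : ℕ) := ⟨p.2.ne_zero⟩; HeckeInputsOne M p))
    (hdia : ∀ d : (ZMod M)ˣ, ∃ δ : FOneBar M ≃ₐ[Kb] FOneBar M, IsDiamond M d δ) :
    TorsionUnramifiedOneAt M ℓ ∧ TorsionFrobQuadraticOneAt M ℓ :=
  ⟨torsionUnramifiedOneAt_of_keyLemmaOneAt hℓ.ne_zero hKL,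
    torsionFrobQuadraticOneAt_of_frobPowOneAt hℓ.ne_zero
      (frobPowOneAt_of_keyLemmaOneAt hℓ hKL (diamondGaussOne_of_diamondBaseOne hB) hNP hin)
      hin hdia⟩

/-- **G-PORT, final wiring at `ℓ`** (from the deliverable `GoodRedOne M` of G-RED). -/
theorem gPort_final_of_goodRedOne {ℓ : ℕ} (hℓ : ℓ.Prime) (hGR : GoodRedOne M)
    (hB : DiamondBaseOne M) (hNP : NormProductOne M)
    (hin : ∀ p : Nat.Primes,
      (haveI : NeZero (p : ℕ) := ⟨p.2.ne_zero⟩; HeckeInputsOne M p))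
    (hdia : ∀ d : (ZMod M)ˣ, ∃ δ : FOneBar M ≃ₐ[Kb] FOneBar M, IsDiamond M d δ) :
    TorsionUnramifiedOneAt M ℓ ∧ TorsionFrobQuadraticOneAt M ℓ :=
  gPort_final hℓ (keyLemmaOneAt_of_goodRedOne hGR ℓ) hB hNP hin hdia

end Fermat.Agent.S48WPort
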