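/-
S48 wall (W), block G, part G-PORT (sub-architect helper37), seat P1 FunOne (helper24).

GENERIC port of `Lib/GaussInt/Unramified.lean` + `F3/Galois/TorsionReduce.lean` (first half):
for ANY field of rational `q`-series `F₀` generated by series integral at `A`,

  `KeyLemmaGen F₀ p A`  ⟹  `InertiaPowGen F₀ p A`     (`inertiaPowGen_of_keyLemma`),
  `InertiaPowOne M`     ⟹  (IF-G1) `TorsionUnramifiedOne M`
                                                 (`torsionUnramifiedOne_of_inertiaPowOne`),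
  `KeyLemmaAtOne M`     ⟹  (IF-G1)               (`torsionUnramifiedOne_of_keyLemmaAtOne`).

`f = c⁻¹ w` with `w` a unit of the Gauss ring; for `τ` in the inertia group `g := τ w / w` lies in
the Gauss ring with residue `1`, and its divisor is `n (τ D - D)`; the KEY LEMMA gives `g = hⁿ`,
and `τ f / f = (c / τ c) hⁿ` is an `n`-th power because `ℚ̄` is algebraically closed.
-/
import Mathlib
import Fermat.Agent.S48.W.G.Port.Defs
import Fermat.Agent.S48.W.G.Red.Int
import Fermat.Agent.Lib.GaussInt.Unramified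
import Fermat.Agent.Lib.GaussInt.ValGroup

set_option autoImplicit false

noncomputable section

namespace Fermat.Agent.S48WPort

open ModularCurve AlgebraicCurve HahnSeries Fermat.Agent.F3 Fermat.Agent.F3G
  Fermat.Agent.GaussInt Fermat.Agent.S48W

local notation "Kb" => AlgebraicClosure ℚ
local notation "GK" => (AlgebraicClosure ℚ ≃ₐ[ℚ] AlgebraicClosure ℚ)

section Generic

variable {F₀ : IntermediateField ℚ (LaurentSeries ℚ)}

/-- **P1 (function form)**: the KEY LEMMA at `A` gives the function form of "inertia at `A` acts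
trivially on the prime-to-`p` torsion", for every field generated by series integral at `A`. -/
theorem inertiaPowGen_of_keyLemma {p : ℕ} {A : ValuationSubring Kb} (hp : p.Prime)
    (hA : A.LiesOverPrime p) (hint : IsIntGen A F₀) (hKL : KeyLemmaGen F₀ p A) :
    InertiaPowGen F₀ p A := by
  intro n hndvd τ hτ f hf D hD
  have hn : n ≠ 0 := by
    rintro rfl
    exact hndvd (dvd_zero p)
  set G := arithmeticGalois F₀ τ with hG
  have hstab : ∀ y ∈ laurentBaseChange Kb F₀,
      coeffMap ((τ : Kb ≃ₐ[ℚ] Kb) : Kb →+* Kb) y ∈ laurentBaseChange Kb F₀ := fun y hy =>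
    coeffMap_mem_laurentBaseChange τ hy
  obtain ⟨c, hc0, hmem, hres⟩ :=
    exists_const_mul_mem_gaussSub hp hA hint f.2 (fun h => hf (Subtype.ext h))
  -- the normalised function `w = c f`
  set w : laurentBaseChange Kb F₀ := algebraMap Kb (laurentBaseChange Kb F₀) c * f with hw
  have hwcoe : (w : LaurentSeries Kb) =
      algebraMap Kb (LaurentSeries Kb) c * (f : LaurentSeries Kb) := rfl
  have hw0 : w ≠ 0 := mul_ne_zero (by simpa using hc0) hf
  have hwmem : (w : LaurentSeries Kb) ∈ gaussSub A (laurentBaseChange Kb F₀) := hmem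
  have hwres : gaussResFun A (laurentBaseChange Kb F₀) (w : LaurentSeries Kb) ≠ 0 := hres
  -- `τ w`
  have hτcoe : ((G • w : laurentBaseChange Kb F₀) : LaurentSeries Kb) =
      coeffMap ((τ : Kb ≃ₐ[ℚ] Kb) : Kb →+* Kb) (w : LaurentSeries Kb) :=
    coe_arithmeticGalois_smul _ τ w
  have hτmem : ((G • w : laurentBaseChange Kb F₀) : LaurentSeries Kb)
      ∈ gaussSub A (laurentBaseChange Kb F₀) := by
    rw [hτcoe]
    exact coeffMap_mem_gaussSub_of_inertia τ hτ hstab hwmem
  have hτres : gaussResFun A (laurentBaseChange Kb F₀)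
      ((G • w : laurentBaseChange Kb F₀) : LaurentSeries Kb) =
      gaussResFun A (laurentBaseChange Kb F₀) (w : LaurentSeries Kb) := by
    rw [hτcoe]
    exact gaussResFun_inertia τ hτ hstab hwmem
  have hτw0 : G • w ≠ 0 := by simpa using hw0
  -- `g = τ w / w`
  set g : laurentBaseChange Kb F₀ := (G • w) * w⁻¹ with hg
  have hg0 : g ≠ 0 := mul_ne_zero hτw0 (inv_ne_zero hw0)
  have hinvmem : ((w⁻¹ : laurentBaseChange Kb F₀) : LaurentSeries Kb)
      ∈ gaussSub A (laurentBaseChange Kb F₀) := by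
    have : ((w⁻¹ : laurentBaseChange Kb F₀) : LaurentSeries Kb) = (w : LaurentSeries Kb)⁻¹ := rfl
    rw [this]
    exact inv_mem_gaussSub hwmem hwres
  have hgmem : (g : LaurentSeries Kb) ∈ gaussSub A (laurentBaseChange Kb F₀) :=
    (gaussSub A (laurentBaseChange Kb F₀)).mul_mem hτmem hinvmem
  have hgres : gaussResFun A (laurentBaseChange Kb F₀) (g : LaurentSeries Kb) = 1 := by
    have h1 : gaussRes A (laurentBaseChange Kb F₀) (⟨_, hτmem⟩ * ⟨_, hinvmem⟩) =
        gaussRes A (laurentBaseChange Kb F₀) ⟨_, hτmem⟩ *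
          gaussRes A (laurentBaseChange Kb F₀) ⟨_, hinvmem⟩ := map_mul _ _ _
    have h2 : gaussResFun A (laurentBaseChange Kb F₀)
        ((w⁻¹ : laurentBaseChange Kb F₀) : LaurentSeries Kb) =
        (gaussResFun A (laurentBaseChange Kb F₀) (w : LaurentSeries Kb))⁻¹ :=
      gaussResFun_inv hwmem hwres
    have h3 : gaussResFun A (laurentBaseChange Kb F₀) (g : LaurentSeries Kb) =
        gaussResFun A (laurentBaseChange Kb F₀)
            ((G • w : laurentBaseChange Kb F₀) : LaurentSeries Kb) *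
          gaussResFun A (laurentBaseChange Kb F₀)
            ((w⁻¹ : laurentBaseChange Kb F₀) : LaurentSeries Kb) := h1
    rw [h3, hτres, h2, mul_inv_cancel₀ hwres]
  -- divisibility of the divisor of `g`
  have hcF : (algebraMap Kb (laurentBaseChange Kb F₀) c) ≠ 0 := by simpa using hc0
  have hordw : ∀ v : Place Kb (laurentBaseChange Kb F₀), v.ord w = v.ord f := fun v => by
    rw [hw, v.ord_mul hcF hf, place_ord_algebraMap v hc0, zero_add]
  have hDw : ∀ v : Place Kb (laurentBaseChange Kb F₀),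
      (n : ℤ) * (D : Divisor Kb (laurentBaseChange Kb F₀)) v = v.ord w := fun v => by
    rw [hordw, hD]
  have hdvd : ∀ P : Place Kb (laurentBaseChange Kb F₀), (n : ℤ) ∣ P.ord g := by
    intro P
    have h1 := mul_smul_divisor_apply_eq_ord G (n : ℤ) hDw P
    rw [hg, P.ord_mul hτw0 (inv_ne_zero hw0), P.ord_inv, ← h1, ← hDw P]
    exact ⟨(G • (D : Divisor Kb (laurentBaseChange Kb F₀))) P
      - (D : Divisor Kb (laurentBaseChange Kb F₀)) P, by ring⟩
  obtain ⟨h, hh⟩ := hKL n hndvd g hg0 hdvd hgmem hgres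
  -- the constant factor
  have hτc0 : τ c ≠ 0 := by simpa using hc0
  obtain ⟨b, hb⟩ := IsAlgClosed.exists_pow_nat_eq (c / τ c) (Nat.pos_of_ne_zero hn)
  refine ⟨algebraMap Kb (laurentBaseChange Kb F₀) b * h, ?_⟩
  have hGw : G • w = algebraMap Kb (laurentBaseChange Kb F₀) (τ c) * (G • f) := by
    rw [hw, smul_mul']
    congr 1
    exact SemilinearAut.smul_algebraMap G c
  have hgw : g * w = G • w := by
    rw [hg, mul_assoc, inv_mul_cancel₀ hw0, mul_one]
  have hτcF : algebraMap Kb (laurentBaseChange Kb F₀) (τ c) ≠ 0 := by simpa using hτc0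
  show (algebraMap Kb (laurentBaseChange Kb F₀) b * h) ^ n * f = G • f
  have e1 : algebraMap Kb (laurentBaseChange Kb F₀) (τ c) *
        ((algebraMap Kb (laurentBaseChange Kb F₀) b * h) ^ n * f) =
      algebraMap Kb (laurentBaseChange Kb F₀) (τ c) * (G • f) := by
    rw [← hGw, ← hgw, ← hh, hw, mul_pow, ← map_pow, hb, map_div₀]
    field_simp
  exact mul_left_cancel₀ hτcF e1

/-- **P1 (classes)**: the function form at `A` gives: the inertia group of `A` acts trivially on
the `n`-torsion of `Pic⁰(ℚ̄ F₀)`, `p ∤ n`. -/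
theorem funOne_smul_eq_of_inertiaPowGen {p : ℕ} {A : ValuationSubring Kb}
    (h : InertiaPowGen F₀ p A) {n : ℕ} (hndvd : ¬ p ∣ n) {τ : GK}
    (hτ : τ ∈ A.inertiaSubgroupIn ℚ) (x : Pic0 Kb (laurentBaseChange Kb F₀))
    (hx : n • x = 0) : τ • x = x := by
  have hn : n ≠ 0 := by
    rintro rfl
    exact hndvd (dvd_zero p)
  have hx' : (n : ℤ) • x = 0 := by rwa [natCast_zsmul]
  obtain ⟨D, f, hf, rfl, hD⟩ := exists_div_of_zsmul_eq_zero (n : ℤ) x hx'
  obtain ⟨u, hu⟩ := h n hndvd τ hτ f hf D hD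
  have hτf : galFunGen F₀ τ f ≠ 0 := by
    show arithmeticGalois F₀ τ • f ≠ 0
    simpa using hf
  have hu0 : u ≠ 0 := by
    rintro rfl
    rw [zero_pow hn, zero_mul] at hu
    exact hτf hu.symm
  rw [← sub_eq_zero]
  show arithmeticGalois F₀ τ • Pic0.mk D - Pic0.mk D = 0
  rw [SemilinearAut.pic0_smul_mk]
  refine mk_eq_zero_of_mul_eq_ord_pow n hn
    (SemilinearAut.degZeroSMulHom (arithmeticGalois F₀ τ) D - D)
    hu0 fun v => ?_
  have h1 := mul_smul_divisor_apply_eq_ord (arithmeticGalois F₀ τ)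
    (n : ℤ) hD v
  have h2 := hD v
  have h3 : v.ord (galFunGen F₀ τ f) = v.ord (u ^ n) + v.ord f := by
    rw [← hu, v.ord_mul (pow_ne_zero n hu0) hf]
  rw [AddSubgroup.coe_sub, Finsupp.sub_apply, mul_sub, SemilinearAut.coe_degZeroSMulHom, h1, h2]
  change v.ord (galFunGen F₀ τ f) - v.ord f = _
  rw [h3]
  ring

end Generic

/-! ### the level `Γ₁(M)` -/

variable {M : ℕ} [NeZero M]

/-- `KeyLemmaAtOne M ⟹ InertiaPowOne M` (the generators of `FOne M` are integral). -/
theorem inertiaPowOne_of_keyLemmaAtOne (hKL : KeyLemmaAtOne M) : InertiaPowOne M :=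
  fun p hp hpM A hA =>
    inertiaPowGen_of_keyLemma hp hA (isIntGen_FOne A M) (hKL p hp hpM A hA)

/-- **P1**: `InertiaPowOne M ⟹` (IF-G1) `TorsionUnramifiedOne M`. -/
theorem torsionUnramifiedOne_of_inertiaPowOne (h : InertiaPowOne M) :
    TorsionUnramifiedOne M := by
  intro n p hp hndvd A hA σ hσ x hx
  have hpM : ¬ p ∣ M := fun hd => hndvd (Dvd.dvd.mul_right hd n)
  have hpn : ¬ p ∣ n := fun hd => hndvd (Dvd.dvd.mul_left hd M)
  exact funOne_smul_eq_of_inertiaPowGen (h p hp hpM A hA) hpn hσ x hx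

/-- **G-FUN1**: `KeyLemmaAtOne M ⟹` (IF-G1) `TorsionUnramifiedOne M`. -/
theorem torsionUnramifiedOne_of_keyLemmaAtOne (hKL : KeyLemmaAtOne M) :
    TorsionUnramifiedOne M :=
  torsionUnramifiedOne_of_inertiaPowOne (inertiaPowOne_of_keyLemmaAtOne hKL)

end Fermat.Agent.S48WPort
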